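/-
Programme FF (S19), chapter BASE (helper2), file ApproxGen2: APPROXIMATE HOPF GENERATING SETS.

`W` a commutative ring, `Om` a commutative `W`-algebra, `O : Subring Om` ("integers"), `M` an additive
commutative group, `Gam` acting on `Om` and (through `act`) on `M`.

* `tens a b : M × M → Om`, `tens a b p = a p.1 * b p.2`;
  `tensorSpan W S : Submodule W (M × M → Om)` = the `W`-span of the `tens a b`, `a b ∈ Algebra.adjoin W S`;
  `tensorSpan_mul` (closed under products), `one_mem_tensorSpan`, `tens_mem_tensorSpan`,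
  `exists_sum_of_mem_tensorSpan` (an element is a finite sum `∑ i, tens (a i) (b i)`).
* `SmallOn O w F : ∀ p, ∃ o ∈ O, F p = algebraMap W Om w * o` ("`F ≡ 0 mod w O`", pointwise).
* `ApproxComul W O S w s := ∃ t ∈ tensorSpan W S, SmallOn O w (fun p => s (p.1 + p.2) - t p)`;
  `approxComul_iff` : the `Fin n`-indexed form used by `FF/HOPF/Order6.hasFlatModel_of_approx`.
* `structure ApproxGen W O act S` : `fin`, `int`, `eqv`, `sep`, `comul` = verbatim the hypotheses
  `hSfin hSint hSeq hSsep hΔ` of `Order6.hasFlatModel_of_approx`.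
* `ApproxGen.int_adjoin`, `ApproxGen.eqv_adjoin` (values in `O`, equivariance on `Algebra.adjoin W S`);
* `approxComul_adjoin` : if every `s ∈ S` has approximate comultiplications modulo `w`, so does every
  element of `Algebra.adjoin W S` (values of `S` in `O`, `W → O`).
-/
import Mathlib

set_option autoImplicit false
set_option linter.unusedSectionVars false

namespace Fermat.Agent.FF.BASE.ApproxGen2

noncomputable section

open scoped BigOperators

variable {W : Type} [CommRing W] {Om : Type} [CommRing Om] [Algebra W Om]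
  {M : Type} [AddCommGroup M]

/-- `(x, y) ↦ a x * b y`. -/
def tens (a b : M → Om) : M × M → Om := fun p => a p.1 * b p.2

@[simp] lemma tens_apply (a b : M → Om) (p : M × M) : tens a b p = a p.1 * b p.2 := rfl

lemma tens_mul (a b a' b' : M → Om) : tens a b * tens a' b' = tens (a * a') (b * b') := by
  funext p
  simp only [Pi.mul_apply, tens_apply]
  ring

lemma tens_add_left (a a' b : M → Om) : tens (a + a') b = tens a b + tens a' b := by
  funext p
  simp only [Pi.add_apply, tens_apply]
  ring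

lemma tens_add_right (a b b' : M → Om) : tens a (b + b') = tens a b + tens a b' := by
  funext p
  simp only [Pi.add_apply, tens_apply]
  ring

lemma tens_smul_left (w : W) (a b : M → Om) : tens (w • a) b = w • tens a b := by
  funext p
  simp only [Pi.smul_apply, tens_apply, Algebra.smul_mul_assoc]

lemma tens_smul_right (w : W) (a b : M → Om) : tens a (w • b) = w • tens a b := by
  funext p
  simp only [Pi.smul_apply, tens_apply, Algebra.mul_smul_comm]

variable (W)

/-- The `W`-span of the functions `(x, y) ↦ a x * b y`, `a, b ∈ W[S]`: the image of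
`W[S] ⊗ W[S]` in the functions on `M × M`. -/
def tensorSpan (S : Set (M → Om)) : Submodule W (M × M → Om) :=
  Submodule.span W {F | ∃ a ∈ Algebra.adjoin W S, ∃ b ∈ Algebra.adjoin W S, F = tens a b}

variable {W}

lemma tens_mem_tensorSpan {S : Set (M → Om)} {a b : M → Om} (ha : a ∈ Algebra.adjoin W S)
    (hb : b ∈ Algebra.adjoin W S) : tens a b ∈ tensorSpan W S :=
  Submodule.subset_span ⟨a, ha, b, hb, rfl⟩

lemma one_mem_tensorSpan (S : Set (M → Om)) : (1 : M × M → Om) ∈ tensorSpan W S := by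
  have h : (1 : M × M → Om) = tens (1 : M → Om) (1 : M → Om) := by
    funext p
    simp
  rw [h]
  exact tens_mem_tensorSpan (Subalgebra.one_mem _) (Subalgebra.one_mem _)

lemma tensorSpan_mul {S : Set (M → Om)} {F G : M × M → Om} (hF : F ∈ tensorSpan W S)
    (hG : G ∈ tensorSpan W S) : F * G ∈ tensorSpan W S := by
  unfold tensorSpan at hF hG ⊢
  induction hF using Submodule.span_induction with
  | mem F hF =>
    obtain ⟨a, ha, b, hb, rfl⟩ := hF
    induction hG using Submodule.span_induction with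
    | mem G hG =>
      obtain ⟨a', ha', b', hb', rfl⟩ := hG
      rw [tens_mul]
      exact Submodule.subset_span ⟨a * a', Subalgebra.mul_mem _ ha ha', b * b',
        Subalgebra.mul_mem _ hb hb', rfl⟩
    | zero => rw [mul_zero]; exact Submodule.zero_mem _
    | add x y _ _ hx hy => rw [mul_add]; exact Submodule.add_mem _ hx hy
    | smul w x _ hx => rw [mul_smul_comm]; exact Submodule.smul_mem _ w hx
  | zero => rw [zero_mul]; exact Submodule.zero_mem _
  | add x y _ _ hx hy => rw [add_mul]; exact Submodule.add_mem _ hx hy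
  | smul w x _ hx => rw [smul_mul_assoc]; exact Submodule.smul_mem _ w hx

/-- An element of `tensorSpan` is a finite sum of pure tensors. -/
lemma exists_sum_of_mem_tensorSpan {S : Set (M → Om)} {F : M × M → Om}
    (hF : F ∈ tensorSpan W S) :
    ∃ (n : ℕ) (a b : Fin n → M → Om), (∀ i, a i ∈ Algebra.adjoin W S) ∧
      (∀ i, b i ∈ Algebra.adjoin W S) ∧ F = ∑ i, tens (a i) (b i) := by
  unfold tensorSpan at hF
  induction hF using Submodule.span_induction with
  | mem F hF =>
    obtain ⟨a, ha, b, hb, rfl⟩ := hF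
    exact ⟨1, fun _ => a, fun _ => b, fun _ => ha, fun _ => hb, by simp⟩
  | zero => exact ⟨0, Fin.elim0, Fin.elim0, fun i => i.elim0, fun i => i.elim0, by simp⟩
  | add x y _ _ hx hy =>
    obtain ⟨n, a, b, ha, hb, rfl⟩ := hx
    obtain ⟨n', a', b', ha', hb', rfl⟩ := hy
    refine ⟨n + n', Fin.append a a', Fin.append b b', ?_, ?_, ?_⟩
    · intro i
      refine Fin.addCases (fun j => ?_) (fun j => ?_) i
      · rw [Fin.append_left]; exact ha j
      · rw [Fin.append_right]; exact ha' j
    · intro i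
      refine Fin.addCases (fun j => ?_) (fun j => ?_) i
      · rw [Fin.append_left]; exact hb j
      · rw [Fin.append_right]; exact hb' j
    · rw [Fin.sum_univ_add]
      simp only [Fin.append_left, Fin.append_right]
  | smul w x _ hx =>
    obtain ⟨n, a, b, ha, hb, rfl⟩ := hx
    refine ⟨n, fun i => w • a i, b, fun i => Subalgebra.smul_mem _ (ha i) w, hb, ?_⟩
    rw [Finset.smul_sum]
    exact Finset.sum_congr rfl fun i _ => (tens_smul_left w (a i) (b i)).symm

lemma sum_tens_mem_tensorSpan {S : Set (M → Om)} {n : ℕ} {a b : Fin n → M → Om}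
    (ha : ∀ i, a i ∈ Algebra.adjoin W S) (hb : ∀ i, b i ∈ Algebra.adjoin W S) :
    (∑ i, tens (a i) (b i)) ∈ tensorSpan W S :=
  Submodule.sum_mem _ fun i _ => tens_mem_tensorSpan (ha i) (hb i)

lemma tensorSpan_mono {S T : Set (M → Om)} (h : Algebra.adjoin W S ≤ Algebra.adjoin W T) :
    tensorSpan W S ≤ tensorSpan W T := by
  unfold tensorSpan
  apply Submodule.span_mono
  rintro F ⟨a, ha, b, hb, rfl⟩
  exact ⟨a, h ha, b, h hb, rfl⟩

/-! ### Smallness -/

/-- `F ≡ 0` modulo `w O`, pointwise. -/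
def SmallOn {X : Type} (O : Subring Om) (w : W) (F : X → Om) : Prop :=
  ∀ p, ∃ o ∈ O, F p = algebraMap W Om w * o

lemma SmallOn.add {X : Type} {O : Subring Om} {w : W} {F G : X → Om} (hF : SmallOn O w F)
    (hG : SmallOn O w G) : SmallOn O w (F + G) := by
  intro p
  obtain ⟨o, ho, h⟩ := hF p
  obtain ⟨o', ho', h'⟩ := hG p
  exact ⟨o + o', O.add_mem ho ho', by rw [Pi.add_apply, h, h', mul_add]⟩

lemma SmallOn.neg {X : Type} {O : Subring Om} {w : W} {F : X → Om} (hF : SmallOn O w F) :
    SmallOn O w (-F) := by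
  intro p
  obtain ⟨o, ho, h⟩ := hF p
  exact ⟨-o, O.neg_mem ho, by rw [Pi.neg_apply, h, mul_neg]⟩

lemma SmallOn.sub {X : Type} {O : Subring Om} {w : W} {F G : X → Om} (hF : SmallOn O w F)
    (hG : SmallOn O w G) : SmallOn O w (F - G) := by
  rw [sub_eq_add_neg]
  exact hF.add hG.neg

lemma SmallOn.zero {X : Type} (O : Subring Om) (w : W) : SmallOn O w (0 : X → Om) :=
  fun _ => ⟨0, O.zero_mem, by simp⟩

lemma SmallOn.mul_right {X : Type} {O : Subring Om} {w : W} {F G : X → Om} (hF : SmallOn O w F)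
    (hG : ∀ p, G p ∈ O) : SmallOn O w (F * G) := by
  intro p
  obtain ⟨o, ho, h⟩ := hF p
  exact ⟨o * G p, O.mul_mem ho (hG p), by rw [Pi.mul_apply, h, mul_assoc]⟩

lemma SmallOn.mul_left {X : Type} {O : Subring Om} {w : W} {F G : X → Om} (hF : SmallOn O w F)
    (hG : ∀ p, G p ∈ O) : SmallOn O w (G * F) := by
  rw [mul_comm]
  exact hF.mul_right hG

lemma SmallOn.smul {X : Type} {O : Subring Om} (hWO : ∀ v : W, algebraMap W Om v ∈ O) {w : W}
    {F : X → Om} (hF : SmallOn O w F) (v : W) : SmallOn O w (v • F) := by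
  intro p
  obtain ⟨o, ho, h⟩ := hF p
  refine ⟨algebraMap W Om v * o, O.mul_mem (hWO v) ho, ?_⟩
  rw [Pi.smul_apply, h, Algebra.smul_def]
  ring

lemma SmallOn.congr {X : Type} {O : Subring Om} {w : W} {F G : X → Om} (hF : SmallOn O w F)
    (h : F = G) : SmallOn O w G := h ▸ hF

/-! ### Approximate comultiplication -/

variable (W)

/-- `s` has a comultiplication in `W[S] ⊗ W[S]` modulo `w O`. -/
def ApproxComul (O : Subring Om) (S : Set (M → Om)) (w : W) (s : M → Om) : Prop :=
  ∃ t ∈ tensorSpan W S, SmallOn O w (fun p : M × M => s (p.1 + p.2) - t p)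

variable {W}

/-- The form used by `FF/HOPF/Order6.hasFlatModel_of_approx`. -/
lemma approxComul_iff {O : Subring Om} {S : Set (M → Om)} {w : W} {s : M → Om} :
    ApproxComul W O S w s ↔
      ∃ (n : ℕ) (a b : Fin n → M → Om), (∀ i, a i ∈ Algebra.adjoin W S) ∧
        (∀ i, b i ∈ Algebra.adjoin W S) ∧
        ∀ x y, ∃ o ∈ O, s (x + y) - ∑ i, a i x * b i y = algebraMap W Om w * o := by
  constructor
  · rintro ⟨t, ht, hsmall⟩
    obtain ⟨n, a, b, ha, hb, rfl⟩ := exists_sum_of_mem_tensorSpan ht
    refine ⟨n, a, b, ha, hb, fun x y => ?_⟩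
    obtain ⟨o, ho, h⟩ := hsmall (x, y)
    refine ⟨o, ho, ?_⟩
    rw [← h]
    simp only [Finset.sum_apply, tens_apply]
  · rintro ⟨n, a, b, ha, hb, h⟩
    refine ⟨∑ i, tens (a i) (b i), sum_tens_mem_tensorSpan ha hb, fun p => ?_⟩
    obtain ⟨o, ho, h'⟩ := h p.1 p.2
    refine ⟨o, ho, ?_⟩
    rw [← h']
    simp only [Finset.sum_apply, tens_apply]

variable (W)

/-- **Approximate Hopf generating set**: verbatim the hypotheses `hSfin hSint hSeq hSsep hΔ` of
`FF/HOPF/Order6.hasFlatModel_of_approx`. -/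
structure ApproxGen {Gam : Type} [SMul Gam Om] (O : Subring Om) (act : Gam → M → M)
    (S : Set (M → Om)) : Prop where
  fin : S.Finite
  int : ∀ s ∈ S, ∀ x, s x ∈ O
  eqv : ∀ s ∈ S, ∀ (σ : Gam) (x : M), s (act σ x) = σ • s x
  sep : ∀ x y, (∀ s ∈ S, s x = s y) → x = y
  comul : ∀ s ∈ S, ∀ w : W, w ≠ 0 → ApproxComul W O S w s

variable {W}

/-- Elements of `W[S]` have values in `O`. -/
lemma int_adjoin {O : Subring Om} (hWO : ∀ v : W, algebraMap W Om v ∈ O) {S : Set (M → Om)}
    (hS : ∀ s ∈ S, ∀ x, s x ∈ O) {f : M → Om} (hf : f ∈ Algebra.adjoin W S) (x : M) : f x ∈ O := by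
  induction hf using Algebra.adjoin_induction with
  | mem s hs => exact hS s hs x
  | algebraMap v => exact hWO v
  | add f g _ _ hf hg => exact O.add_mem hf hg
  | mul f g _ _ hf hg => exact O.mul_mem hf hg

/-- Elements of `W[S]` are equivariant. -/
lemma eqv_adjoin {Gam : Type} [Monoid Gam] [MulSemiringAction Gam Om] [SMulCommClass Gam W Om]
    {act : Gam → M → M} {S : Set (M → Om)}
    (hS : ∀ s ∈ S, ∀ (σ : Gam) (x : M), s (act σ x) = σ • s x) {f : M → Om}
    (hf : f ∈ Algebra.adjoin W S) (σ : Gam) (x : M) : f (act σ x) = σ • f x := by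
  induction hf using Algebra.adjoin_induction with
  | mem s hs => exact hS s hs σ x
  | algebraMap v =>
    show algebraMap W Om v = σ • algebraMap W Om v
    rw [Algebra.algebraMap_eq_smul_one, smul_comm, smul_one]
  | add f g _ _ hf hg => rw [Pi.add_apply, Pi.add_apply, hf, hg, smul_add]
  | mul f g _ _ hf hg => rw [Pi.mul_apply, Pi.mul_apply, hf, hg, smul_mul']

/-- Values of elements of `tensorSpan` lie in `O`. -/
lemma int_tensorSpan {O : Subring Om} (hWO : ∀ v : W, algebraMap W Om v ∈ O) {S : Set (M → Om)}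
    (hS : ∀ s ∈ S, ∀ x, s x ∈ O) {F : M × M → Om} (hF : F ∈ tensorSpan W S) (p : M × M) :
    F p ∈ O := by
  unfold tensorSpan at hF
  induction hF using Submodule.span_induction with
  | mem F hF =>
    obtain ⟨a, ha, b, hb, rfl⟩ := hF
    exact O.mul_mem (int_adjoin hWO hS ha _) (int_adjoin hWO hS hb _)
  | zero => exact O.zero_mem
  | add x y _ _ hx hy => exact O.add_mem hx hy
  | smul w x _ hx =>
    rw [Pi.smul_apply, Algebra.smul_def]
    exact O.mul_mem (hWO w) hx

/-- **Approximate comultiplication extends from the generators to the algebra.** -/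
theorem approxComul_adjoin {O : Subring Om} (hWO : ∀ v : W, algebraMap W Om v ∈ O)
    {S : Set (M → Om)} (hS : ∀ s ∈ S, ∀ x, s x ∈ O) {w : W}
    (hΔ : ∀ s ∈ S, ApproxComul W O S w s) {f : M → Om} (hf : f ∈ Algebra.adjoin W S) :
    ApproxComul W O S w f := by
  induction hf using Algebra.adjoin_induction with
  | mem s hs => exact hΔ s hs
  | algebraMap v =>
    refine ⟨v • (1 : M × M → Om), Submodule.smul_mem _ v (one_mem_tensorSpan S), fun p => ?_⟩
    refine ⟨0, O.zero_mem, ?_⟩
    rw [mul_zero]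
    show algebraMap W (M → Om) v (p.1 + p.2) - (v • (1 : M × M → Om)) p = 0
    rw [Pi.smul_apply, Pi.one_apply, Algebra.smul_def, mul_one, Pi.algebraMap_apply]
    exact sub_self _
  | add f g _ _ hf hg =>
    obtain ⟨t, ht, h⟩ := hf
    obtain ⟨t', ht', h'⟩ := hg
    refine ⟨t + t', Submodule.add_mem _ ht ht', (h.add h').congr ?_⟩
    funext p
    simp only [Pi.add_apply]
    ring
  | mul f g hf0 hg0 hf hg =>
    obtain ⟨t, ht, h⟩ := hf
    obtain ⟨t', ht', h'⟩ := hg
    refine ⟨t * t', tensorSpan_mul ht ht', ?_⟩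
    have h1 : SmallOn O w ((fun p : M × M => f (p.1 + p.2) - t p) *
        (fun p : M × M => g (p.1 + p.2))) :=
      h.mul_right fun p => int_adjoin hWO hS hg0 _
    have h2 : SmallOn O w (t * (fun p : M × M => g (p.1 + p.2) - t' p)) :=
      h'.mul_left fun p => int_tensorSpan hWO hS ht p
    refine (h1.add h2).congr ?_
    funext p
    simp only [Pi.add_apply, Pi.mul_apply]
    ring

/-- `ApproxComul` is monotone in the precision: `w ∣ w'`. -/
lemma ApproxComul.of_dvd {O : Subring Om} (hWO : ∀ v : W, algebraMap W Om v ∈ O)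
    {S : Set (M → Om)} {w w' : W} (hdvd : w ∣ w') {s : M → Om} (h : ApproxComul W O S w' s) :
    ApproxComul W O S w s := by
  obtain ⟨t, ht, hsm⟩ := h
  obtain ⟨c, rfl⟩ := hdvd
  refine ⟨t, ht, fun p => ?_⟩
  obtain ⟨o, ho, h⟩ := hsm p
  exact ⟨algebraMap W Om c * o, O.mul_mem (hWO c) ho, by rw [h, map_mul, mul_assoc]⟩

end

end Fermat.Agent.FF.BASE.ApproxGen2
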