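/-
Programme FF (S19), chapter BASE (helper2), file Descent2: ABSTRACT UNRAMIFIED DESCENT of
approximate Hopf generating sets.

`G` a group acting on the commutative ring `Om` by ring automorphisms and (through `act`) on the
additive group `M` by automorphisms; `O : Subring Om` a `G`-stable subring; `W1`, `W0` commutative
rings mapping to `O` (`W1` = "unramified integers", stable under `G`; `W0` = the `G`-fixed elements
of `O`).

* `cosetSum V f = ∑ c : G ⧸ V, f c.out`; `cosetSum_translate` (invariance under left translation for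
  right-`V`-invariant `f`), `cosetSum_indicator`.
* `star act g f = fun m => g • f (act g⁻¹ m)` (the semilinear action on functions `M → Om`),
  `star2` (on functions `M × M → Om`).
* `approxGen_descent` : an approximate Hopf generating set `S0` over `W1`, stable under `star`,
  together with a **dual pair** for a finite index subgroup `V` leaving the elements of `S0` invariant
  and **trace-one elements** at arbitrarily deep levels, gives an approximate Hopf generating set
  `S1` over `W0` for the action of the whole group `G`.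
-/
import Mathlib
import Fermat.Agent.FF.BASE.ApproxGen2

set_option autoImplicit false
set_option linter.unusedSectionVars false
set_option linter.style.haveILetI false

namespace Fermat.Agent.FF.BASE.Descent2

open Fermat.Agent.FF.BASE.ApproxGen2

noncomputable section

open scoped BigOperators

/-! ### Sums over cosets -/

section CosetSum

variable {G : Type} [Group G] (V : Subgroup G) [V.FiniteIndex] {X : Type} [AddCommMonoid X]

/-- The sum of `f` over a system of representatives of `G ⧸ V`. -/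
def cosetSum (f : G → X) : X :=
  letI := Fintype.ofFinite (G ⧸ V)
  ∑ c : G ⧸ V, f c.out

lemma cosetSum_congr {f f' : G → X} (h : ∀ g, f g = f' g) : cosetSum V f = cosetSum V f' := by
  have : f = f' := funext h
  rw [this]

lemma cosetSum_add (f f' : G → X) :
    cosetSum V (fun g => f g + f' g) = cosetSum V f + cosetSum V f' := by
  unfold cosetSum
  exact Finset.sum_add_distrib

lemma cosetSum_zero : cosetSum V (fun _ => (0 : X)) = 0 := by
  unfold cosetSum
  exact Finset.sum_const_zero

lemma cosetSum_map {Y : Type} [AddCommMonoid Y] (φ : X →+ Y) (f : G → X) :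
    φ (cosetSum V f) = cosetSum V (fun g => φ (f g)) := by
  unfold cosetSum
  exact map_sum φ _ _

lemma cosetSum_mem {S : Type} [SetLike S X] [AddSubmonoidClass S X] (P : S) {f : G → X}
    (h : ∀ g, f g ∈ P) : cosetSum V f ∈ P := by
  unfold cosetSum
  exact sum_mem fun c _ => h _

lemma cosetSum_finset_sum {κ : Type} (t : Finset κ) (F : κ → G → X) :
    cosetSum V (fun g => ∑ i ∈ t, F i g) = ∑ i ∈ t, cosetSum V (F i) := by
  unfold cosetSum
  exact Finset.sum_comm

lemma cosetSum_smul {R : Type} [Monoid R] [DistribMulAction R X] (c : R) (f : G → X) :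
    c • cosetSum V f = cosetSum V (fun g => c • f g) := by
  unfold cosetSum
  exact Finset.smul_sum

lemma cosetSum_smul_const {R : Type} [Semiring R] [Module R X] (f : G → R) (y : X) :
    cosetSum V (fun g => f g • y) = cosetSum V f • y := by
  unfold cosetSum
  exact (Finset.sum_smul).symm

/-- Invariance of the coset sum of a right-`V`-invariant function under left translations. -/
lemma cosetSum_translate {f : G → X} (hf : ∀ g v, v ∈ V → f (g * v) = f g) (g0 : G) :
    cosetSum V (fun g => f (g0 * g)) = cosetSum V f := by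
  unfold cosetSum
  letI := Fintype.ofFinite (G ⧸ V)
  have key : ∀ c : G ⧸ V, f (g0 * c.out) = f ((g0 • c).out) := by
    intro c
    have h1 : (g0 • c) = ((g0 * c.out : G) : G ⧸ V) := by
      conv_lhs => rw [← QuotientGroup.out_eq' c]
      rfl
    obtain ⟨v, hv⟩ := QuotientGroup.mk_out_eq_mul V (g0 * c.out)
    rw [h1, hv, hf _ _ v.2]
  simp only [key]
  exact Equiv.sum_comp (MulAction.toPerm g0 : G ⧸ V ≃ G ⧸ V) (fun c => f c.out)

/-- Only the trivial coset contributes to the coset sum of an indicator of `V`. -/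
lemma cosetSum_indicator [DecidablePred (· ∈ V)] (y : X) :
    cosetSum V (fun g => if g ∈ V then y else 0) = y := by
  unfold cosetSum
  letI := Fintype.ofFinite (G ⧸ V)
  classical
  rw [Finset.sum_eq_single ((1 : G) : G ⧸ V)]
  · have : ((1 : G) : G ⧸ V).out ∈ V := by
      obtain ⟨v, hv⟩ := QuotientGroup.mk_out_eq_mul V (1 : G)
      rw [hv, one_mul]
      exact v.2
    show (if _ ∈ V then y else 0) = y
    rw [if_pos this]
  · intro c _ hc
    show (if _ ∈ V then y else 0) = 0
    rw [if_neg]
    intro hmem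
    apply hc
    rw [← QuotientGroup.out_eq' c]
    refine QuotientGroup.eq.2 ?_
    rw [mul_one]
    exact V.inv_mem hmem
  · intro h
    exact absurd (Finset.mem_univ _) h

end CosetSum

/-! ### The semilinear action on functions -/

section Star

variable {Om : Type} [CommRing Om] {G : Type} [Group G] [MulSemiringAction G Om]
  {M : Type} [AddCommGroup M] (act : G → M → M)

/-- The semilinear action of `G` on the functions `M → Om`. -/
def star (g : G) (f : M → Om) : M → Om := fun m => g • f (act g⁻¹ m)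

/-- The semilinear action of `G` on the functions `M × M → Om`. -/
def star2 (g : G) (F : M × M → Om) : M × M → Om :=
  fun p => g • F (act g⁻¹ p.1, act g⁻¹ p.2)

lemma star_apply (g : G) (f : M → Om) (m : M) : star act g f m = g • f (act g⁻¹ m) := rfl

lemma star2_apply (g : G) (F : M × M → Om) (p : M × M) :
    star2 act g F p = g • F (act g⁻¹ p.1, act g⁻¹ p.2) := rfl

lemma star_add (g : G) (f f' : M → Om) : star act g (f + f') = star act g f + star act g f' := by
  funext m
  simp only [star_apply, Pi.add_apply, smul_add]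

lemma star_zero (g : G) : star act g (0 : M → Om) = 0 := by
  funext m
  simp only [star_apply, Pi.zero_apply, smul_zero]

lemma star_mul_fn (g : G) (f f' : M → Om) : star act g (f * f') = star act g f * star act g f' := by
  funext m
  simp only [star_apply, Pi.mul_apply, smul_mul']

lemma star_smul (g : G) (c : Om) (f : M → Om) : star act g (c • f) = (g • c) • star act g f := by
  funext m
  simp only [star_apply, Pi.smul_apply, smul_eq_mul, smul_mul']

/-- `star g` as an additive map. -/
def starHom (g : G) : (M → Om) →+ (M → Om) where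
  toFun := star act g
  map_zero' := star_zero act g
  map_add' := star_add act g

lemma starHom_apply (g : G) (f : M → Om) : starHom act g f = star act g f := rfl

lemma star2_add (g : G) (F F' : M × M → Om) :
    star2 act g (F + F') = star2 act g F + star2 act g F' := by
  funext p
  simp only [star2_apply, Pi.add_apply, smul_add]

lemma star2_zero (g : G) : star2 act g (0 : M × M → Om) = 0 := by
  funext p
  simp only [star2_apply, Pi.zero_apply, smul_zero]

lemma star2_sub (g : G) (F F' : M × M → Om) :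
    star2 act g (F - F') = star2 act g F - star2 act g F' := by
  funext p
  simp only [star2_apply, Pi.sub_apply, smul_sub]

lemma star2_smul (g : G) (c : Om) (F : M × M → Om) :
    star2 act g (c • F) = (g • c) • star2 act g F := by
  funext p
  simp only [star2_apply, Pi.smul_apply, smul_eq_mul, smul_mul']

lemma star2_tens (g : G) (a b : M → Om) :
    star2 act g (tens a b) = tens (star act g a) (star act g b) := by
  funext p
  simp only [star2_apply, tens_apply, star_apply, smul_mul']

variable {act}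

lemma star_comp (hactmul : ∀ g h x, act (g * h) x = act g (act h x)) (g h : G) (f : M → Om) :
    star act (g * h) f = star act g (star act h f) := by
  funext m
  simp only [star_apply, mul_inv_rev, hactmul, mul_smul]

lemma star2_comp_add (hactadd : ∀ g x y, act g (x + y) = act g x + act g y) (g : G)
    (f : M → Om) :
    star2 act g (fun p => f (p.1 + p.2)) = fun p => star act g f (p.1 + p.2) := by
  funext p
  simp only [star2_apply, star_apply, hactadd]

lemma eqv_of_star_eq (hact1 : ∀ x, act 1 x = x)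
    (hactmul : ∀ g h x, act (g * h) x = act g (act h x)) {f : M → Om} {g : G}
    (h : star act g f = f) (m : M) : f (act g m) = g • f m := by
  conv_lhs => rw [← h]
  rw [star_apply, ← hactmul, inv_mul_cancel, hact1]

lemma star_eq_of_eqv (hact1 : ∀ x, act 1 x = x)
    (hactmul : ∀ g h x, act (g * h) x = act g (act h x)) {f : M → Om} {g : G}
    (h : ∀ m, f (act g m) = g • f m) : star act g f = f := by
  funext m
  rw [star_apply, ← h, ← hactmul, mul_inv_cancel, hact1]

end Star

/-! ### The averaged generators -/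

section Theta

variable {Om : Type} [CommRing Om] {G : Type} [Group G] [MulSemiringAction G Om]
  {M : Type} [AddCommGroup M] {act : G → M → M}

/-- `θ_{x,s} = ∑_ρ ρ(x) · (ρ ⋆ s)`, the sum over `G ⧸ V`. -/
def theta (V : Subgroup G) [V.FiniteIndex] (act : G → M → M) (x : Om) (s : M → Om) : M → Om :=
  cosetSum V (fun ρ => (ρ • x) • star act ρ s)

variable (V : Subgroup G) [V.FiniteIndex]

lemma theta_star (hactmul : ∀ g h x, act (g * h) x = act g (act h x)) {x : Om} {s : M → Om}
    (hx : ∀ v ∈ V, v • x = x) (hs : ∀ v ∈ V, star act v s = s) (g : G) :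
    star act g (theta V act x s) = theta V act x s := by
  unfold theta
  rw [← starHom_apply, cosetSum_map]
  have h1 : ∀ ρ : G, starHom act g ((ρ • x) • star act ρ s) =
      (fun ρ' : G => (ρ' • x) • star act ρ' s) (g * ρ) := by
    intro ρ
    show star act g ((ρ • x) • star act ρ s) = ((g * ρ) • x) • star act (g * ρ) s
    rw [star_smul, ← star_comp hactmul, mul_smul]
  rw [cosetSum_congr V h1]
  refine cosetSum_translate V (f := fun ρ' : G => (ρ' • x) • star act ρ' s) ?_ g
  intro ρ v hv
  show ((ρ * v) • x) • star act (ρ * v) s = (ρ • x) • star act ρ s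
  rw [mul_smul, hx v hv, star_comp hactmul, hs v hv]

lemma theta_mem {O : Subring Om} (hO : ∀ (g : G), ∀ x ∈ O, g • x ∈ O) {x : Om} (hx : x ∈ O)
    {s : M → Om} (hs : ∀ m, s m ∈ O) (m : M) : theta V act x s m ∈ O := by
  unfold theta
  have : cosetSum V (fun ρ => (ρ • x) • star act ρ s) m =
      cosetSum V (fun ρ => ((ρ • x) • star act ρ s) m) :=
    cosetSum_map V (Pi.evalAddMonoidHom (fun _ : M => Om) m)
      (fun ρ => (ρ • x) • star act ρ s)
  rw [this]
  apply cosetSum_mem V O.toAddSubmonoid
  intro ρ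
  show (ρ • x) * (ρ • s (act ρ⁻¹ m)) ∈ O
  exact O.mul_mem (hO ρ x hx) (hO ρ _ (hs _))

/-- **The descent identity**: `s = ∑_i x'_i θ_{x_i, s}` for a dual pair `(x, x')`. -/
lemma descent_identity {r : ℕ} (x x' : Fin r → Om) {s : M → Om}
    (hs : ∀ v ∈ V, star act v s = s)
    (h1 : ∀ g ∈ V, ∑ i, (g • x i) * x' i = 1) (h0 : ∀ g, g ∉ V → ∑ i, (g • x i) * x' i = 0) :
    ∑ i, x' i • theta V act (x i) s = s := by
  classical
  unfold theta
  simp only [cosetSum_smul]
  rw [← cosetSum_finset_sum]
  have key : ∀ ρ : G, ∑ i, x' i • ((ρ • x i) • star act ρ s) = if ρ ∈ V then s else 0 := by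
    intro ρ
    have e : ∑ i, x' i • ((ρ • x i) • star act ρ s) =
        (∑ i, (ρ • x i) * x' i) • star act ρ s := by
      rw [Finset.sum_smul]
      refine Finset.sum_congr rfl fun i _ => ?_
      rw [smul_smul, mul_comm]
    rw [e]
    split_ifs with hρ
    · rw [h1 _ hρ, one_smul, hs _ hρ]
    · rw [h0 _ hρ, zero_smul]
  rw [cosetSum_congr V key]
  exact cosetSum_indicator V s

lemma theta_mem_span {W1 : Type} [CommRing W1] [Algebra W1 Om]
    (hW1G : ∀ (g : G) (w : W1), ∃ w' : W1, algebraMap W1 Om w' = g • algebraMap W1 Om w)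
    {S0 : Set (M → Om)} (hstab : ∀ (g : G), ∀ s ∈ S0, star act g s ∈ S0) (w : W1) {s : M → Om}
    (hs : s ∈ S0) : theta V act (algebraMap W1 Om w) s ∈ Submodule.span W1 S0 := by
  unfold theta
  apply cosetSum_mem V (Submodule.span W1 S0)
  intro ρ
  obtain ⟨w', hw'⟩ := hW1G ρ w
  rw [← hw', algebraMap_smul]
  exact Submodule.smul_mem _ _ (Submodule.subset_span (hstab ρ s hs))

end Theta

/-! ### Descent of the algebra and of the tensor span -/

section Algebra

variable {Om : Type} [CommRing Om] {G : Type} [Group G] [MulSemiringAction G Om]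
  {M : Type} [AddCommGroup M] {act : G → M → M}
  {W1 W0 : Type} [CommRing W1] [CommRing W0] [Algebra W1 Om] [Algebra W0 Om]

/-- Elements of `W0[S1]` are invariant when the elements of `S1` are and `G` fixes `W0`. -/
lemma star_eq_of_mem_adjoin
    (hW0fix : ∀ (g : G) (w : W0), g • algebraMap W0 Om w = algebraMap W0 Om w)
    {S1 : Set (M → Om)} (hS1 : ∀ θ ∈ S1, ∀ g : G, star act g θ = θ) {f : M → Om}
    (hf : f ∈ Algebra.adjoin W0 S1) (g : G) : star act g f = f := by
  induction hf using Algebra.adjoin_induction with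
  | mem θ hθ => exact hS1 θ hθ g
  | algebraMap z =>
    funext m
    show g • algebraMap W0 Om z = algebraMap W0 Om z
    exact hW0fix g z
  | add f f' _ _ hf hf' => rw [star_add, hf, hf']
  | mul f f' _ _ hf hf' => rw [star_mul_fn, hf, hf']

/-- `W1[S0] ⊆ W1 · W0[S1]` as soon as `S0 ⊆ W1 · W0[S1]`. -/
lemma adjoin_le_span {S0 S1 : Set (M → Om)}
    (hS0 : ∀ s ∈ S0, s ∈ Submodule.span W1 (Algebra.adjoin W0 S1 : Set (M → Om)))
    {f : M → Om} (hf : f ∈ Algebra.adjoin W1 S0) :
    f ∈ Submodule.span W1 (Algebra.adjoin W0 S1 : Set (M → Om)) := by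
  set A0 : Subalgebra W0 (M → Om) := Algebra.adjoin W0 S1 with hA0
  set P : Submodule W1 (M → Om) := Submodule.span W1 (A0 : Set (M → Om)) with hP
  have h1 : (1 : M → Om) ∈ P := Submodule.subset_span (Subalgebra.one_mem A0)
  have hmul : ∀ x y : M → Om, x ∈ P → y ∈ P → x * y ∈ P := by
    intro x y hx hy
    have h2 : x * y ∈ P * P := Submodule.mul_mem_mul hx hy
    have h3 : P * P ≤ P := by
      rw [hP, Submodule.span_mul_span]
      apply Submodule.span_mono
      rintro _ ⟨a, ha, b, hb, rfl⟩
      exact A0.mul_mem ha hb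
    exact h3 h2
  have hle : Algebra.adjoin W1 S0 ≤ Submodule.toSubalgebra P h1 hmul :=
    Algebra.adjoin_le fun s hs => hS0 s hs
  exact hle hf

/-- Pure tensors of elements of `W1 · A0` lie in the `W1`-span of the pure tensors of `A0`. -/
lemma tens_mem_span_tens {A0 : Set (M → Om)} {a b : M → Om}
    (ha : a ∈ Submodule.span W1 A0) (hb : b ∈ Submodule.span W1 A0) :
    tens a b ∈ Submodule.span W1 {F : M × M → Om | ∃ a ∈ A0, ∃ b ∈ A0, F = tens a b} := by
  induction ha using Submodule.span_induction with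
  | mem a ha =>
    induction hb using Submodule.span_induction with
    | mem b hb => exact Submodule.subset_span ⟨a, ha, b, hb, rfl⟩
    | zero =>
      have : tens a (0 : M → Om) = 0 := by funext p; simp
      rw [this]; exact Submodule.zero_mem _
    | add x y _ _ hx hy => rw [tens_add_right]; exact Submodule.add_mem _ hx hy
    | smul w x _ hx => rw [tens_smul_right]; exact Submodule.smul_mem _ w hx
  | zero =>
    have : tens (0 : M → Om) b = 0 := by funext p; simp
    rw [this]; exact Submodule.zero_mem _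
  | add x y _ _ hx hy => rw [tens_add_left]; exact Submodule.add_mem _ hx hy
  | smul w x _ hx => rw [tens_smul_left]; exact Submodule.smul_mem _ w hx

/-- `W1[S0] ⊗ W1[S0] ⊆ W1 · (W0[S1] ⊗ W0[S1])`. -/
lemma tensorSpan_le_span {S0 S1 : Set (M → Om)}
    (hS0 : ∀ s ∈ S0, s ∈ Submodule.span W1 (Algebra.adjoin W0 S1 : Set (M → Om))) :
    tensorSpan W1 S0 ≤ Submodule.span W1 {F : M × M → Om |
      ∃ a ∈ (Algebra.adjoin W0 S1 : Set (M → Om)), ∃ b ∈ (Algebra.adjoin W0 S1 : Set (M → Om)),
        F = tens a b} := by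
  unfold tensorSpan
  rw [Submodule.span_le]
  rintro _ ⟨a, ha, b, hb, rfl⟩
  exact tens_mem_span_tens (adjoin_le_span hS0 ha) (adjoin_le_span hS0 hb)

end Algebra

/-! ### Averaging -/

section Average

variable {Om : Type} [CommRing Om] {G : Type} [Group G] [MulSemiringAction G Om]
  {M : Type} [AddCommGroup M] {act : G → M → M}
  {W1 W0 : Type} [CommRing W1] [CommRing W0] [Algebra W1 Om] [Algebra W0 Om]
  {O : Subring Om}

/-- The trace `∑_ρ ρ(x)` of a `V`-fixed element of `O` comes from `W0`. -/
lemma exists_trace (hO : ∀ (g : G), ∀ x ∈ O, g • x ∈ O)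
    (hfix : ∀ x ∈ O, (∀ g : G, g • x = x) → ∃ w : W0, algebraMap W0 Om w = x)
    (V : Subgroup G) [V.FiniteIndex] {x : Om} (hx : x ∈ O) (hxV : ∀ v ∈ V, v • x = x) :
    ∃ z : W0, algebraMap W0 Om z = cosetSum V (fun ρ => ρ • x) := by
  apply hfix
  · exact cosetSum_mem V O.toAddSubmonoid fun ρ => hO ρ x hx
  · intro g
    have h1 : g • cosetSum V (fun ρ => ρ • x) = cosetSum V (fun ρ => g • ρ • x) :=
      cosetSum_map V (DistribSMul.toAddMonoidHom Om g) (fun ρ => ρ • x)
    rw [h1]
    have h2 : ∀ ρ : G, g • ρ • x = (fun ρ' : G => ρ' • x) (g * ρ) := fun ρ => (mul_smul g ρ x).symm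
    rw [cosetSum_congr V h2]
    refine cosetSum_translate V (f := fun ρ' : G => ρ' • x) ?_ g
    intro ρ v hv
    show (ρ * v) • x = ρ • x
    rw [mul_smul, hxV v hv]

/-- **Averaging**: an element of `W1 · (W0[S1] ⊗ W0[S1])` becomes, after averaging with any
multiplier `u` at a sufficiently deep level, an element of `W0[S1] ⊗ W0[S1]`. -/
lemma exists_level_avg_mem (hO : ∀ (g : G), ∀ x ∈ O, g • x ∈ O)
    (hW1O : ∀ w : W1, algebraMap W1 Om w ∈ O)
    (hW0fix : ∀ (g : G) (w : W0), g • algebraMap W0 Om w = algebraMap W0 Om w)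
    (hfix : ∀ x ∈ O, (∀ g : G, g • x = x) → ∃ w : W0, algebraMap W0 Om w = x)
    {S1 : Set (M → Om)} (hS1 : ∀ θ ∈ S1, ∀ g : G, star act g θ = θ) {t : M × M → Om}
    (ht : t ∈ Submodule.span W1 {F : M × M → Om |
      ∃ a ∈ (Algebra.adjoin W0 S1 : Set (M → Om)), ∃ b ∈ (Algebra.adjoin W0 S1 : Set (M → Om)),
        F = tens a b}) :
    ∃ D : Finset W1, ∀ (V : Subgroup G) [V.FiniteIndex],
      (∀ v ∈ V, ∀ d ∈ D, v • algebraMap W1 Om d = algebraMap W1 Om d) →
      ∀ u : W1, (∀ v ∈ V, v • algebraMap W1 Om u = algebraMap W1 Om u) →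
        cosetSum V (fun ρ => (ρ • algebraMap W1 Om u) • star2 act ρ t) ∈ tensorSpan W0 S1 := by
  classical
  induction ht using Submodule.span_induction with
  | mem t ht =>
    obtain ⟨a, ha, b, hb, rfl⟩ := ht
    refine ⟨∅, fun V _ _ u hu => ?_⟩
    have h1 : ∀ ρ : G, (ρ • algebraMap W1 Om u) • star2 act ρ (tens a b) =
        (ρ • algebraMap W1 Om u) • tens a b := by
      intro ρ
      rw [star2_tens, star_eq_of_mem_adjoin hW0fix hS1 ha, star_eq_of_mem_adjoin hW0fix hS1 hb]
    rw [cosetSum_congr V h1, cosetSum_smul_const]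
    obtain ⟨z, hz⟩ := exists_trace hO hfix V (hW1O u) hu
    rw [← hz, algebraMap_smul]
    exact Submodule.smul_mem _ z (tens_mem_tensorSpan ha hb)
  | zero =>
    refine ⟨∅, fun V _ _ u _ => ?_⟩
    have h1 : ∀ ρ : G, (ρ • algebraMap W1 Om u) • star2 act ρ (0 : M × M → Om) = 0 := by
      intro ρ
      rw [star2_zero, smul_zero]
    rw [cosetSum_congr V h1, cosetSum_zero]
    exact Submodule.zero_mem _
  | add x y _ _ hx hy =>
    obtain ⟨D1, h1⟩ := hx
    obtain ⟨D2, h2⟩ := hy
    refine ⟨D1 ∪ D2, fun V _ hV u hu => ?_⟩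
    have e : ∀ ρ : G, (ρ • algebraMap W1 Om u) • star2 act ρ (x + y) =
        (ρ • algebraMap W1 Om u) • star2 act ρ x + (ρ • algebraMap W1 Om u) • star2 act ρ y := by
      intro ρ
      rw [star2_add, smul_add]
    rw [cosetSum_congr V e, cosetSum_add]
    exact Submodule.add_mem _
      (h1 V (fun v hv d hd => hV v hv d (Finset.mem_union_left _ hd)) u hu)
      (h2 V (fun v hv d hd => hV v hv d (Finset.mem_union_right _ hd)) u hu)
  | smul c x _ hx =>
    obtain ⟨D1, h1⟩ := hx
    refine ⟨insert c D1, fun V _ hV u hu => ?_⟩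
    have e : ∀ ρ : G, (ρ • algebraMap W1 Om u) • star2 act ρ (c • x) =
        (ρ • algebraMap W1 Om (u * c)) • star2 act ρ x := by
      intro ρ
      rw [← algebraMap_smul Om c x, star2_smul, smul_smul, ← smul_mul', ← map_mul]
    rw [cosetSum_congr V e]
    refine h1 V (fun v hv d hd => hV v hv d (Finset.mem_insert_of_mem hd)) (u * c) ?_
    intro v hv
    rw [map_mul, smul_mul', hu v hv, hV v hv c (Finset.mem_insert_self c D1)]

end Average

/-! ### The descent theorem -/

section Main

variable {Om : Type} [CommRing Om] {G : Type} [Group G] [MulSemiringAction G Om]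
  {M : Type} [AddCommGroup M] {act : G → M → M}
  {W1 W0 : Type} [CommRing W1] [CommRing W0] [Algebra W1 Om] [Algebra W0 Om]
  {O : Subring Om}

/-- Smallness modulo `w0 O` of an averaged function. -/
lemma smallOn_cosetSum (hO : ∀ (g : G), ∀ x ∈ O, g • x ∈ O)
    (hW0fix : ∀ (g : G) (w : W0), g • algebraMap W0 Om w = algebraMap W0 Om w)
    (V : Subgroup G) [V.FiniteIndex] {w0 : W0} {x : Om} (hx : x ∈ O) {Δ : M × M → Om}
    (hΔ : SmallOn O w0 Δ) :
    SmallOn O w0 (cosetSum V (fun ρ => (ρ • x) • star2 act ρ Δ)) := by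
  intro p
  have h1 : cosetSum V (fun ρ => (ρ • x) • star2 act ρ Δ) p =
      cosetSum V (fun ρ => ((ρ • x) • star2 act ρ Δ) p) :=
    cosetSum_map V (Pi.evalAddMonoidHom (fun _ : M × M => Om) p)
      (fun ρ => (ρ • x) • star2 act ρ Δ)
  rw [h1]
  -- the set of multiples of `w0` by elements of `O` is an additive submonoid
  let P : AddSubmonoid Om :=
    { carrier := {y | ∃ o ∈ O, y = algebraMap W0 Om w0 * o}
      zero_mem' := ⟨0, O.zero_mem, by rw [mul_zero]⟩
      add_mem' := by
        rintro _ _ ⟨o, ho, rfl⟩ ⟨o', ho', rfl⟩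
        exact ⟨o + o', O.add_mem ho ho', by rw [mul_add]⟩ }
  have h2 : cosetSum V (fun ρ => ((ρ • x) • star2 act ρ Δ) p) ∈ P := by
    apply cosetSum_mem V P
    intro ρ
    obtain ⟨o, ho, h⟩ := hΔ (act ρ⁻¹ p.1, act ρ⁻¹ p.2)
    refine ⟨(ρ • x) * (ρ • o), O.mul_mem (hO ρ x hx) (hO ρ o ho), ?_⟩
    show (ρ • x) * (ρ • Δ (act ρ⁻¹ p.1, act ρ⁻¹ p.2)) = _
    rw [h, smul_mul', hW0fix]
    ring
  exact h2

/-- **Unramified descent of approximate Hopf generating sets.** -/
theorem approxGen_descent (hact1 : ∀ x, act 1 x = x)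
    (hactmul : ∀ g h x, act (g * h) x = act g (act h x))
    (hactadd : ∀ g x y, act g (x + y) = act g x + act g y)
    (hO : ∀ (g : G), ∀ x ∈ O, g • x ∈ O)
    (hW1O : ∀ w : W1, algebraMap W1 Om w ∈ O)
    (hW1G : ∀ (g : G) (w : W1), ∃ w' : W1, algebraMap W1 Om w' = g • algebraMap W1 Om w)
    (hW01 : ∀ w : W0, ∃ w1 : W1, algebraMap W1 Om w1 = algebraMap W0 Om w)
    (hW0fix : ∀ (g : G) (w : W0), g • algebraMap W0 Om w = algebraMap W0 Om w)
    (hfix : ∀ x ∈ O, (∀ g : G, g • x = x) → ∃ w : W0, algebraMap W0 Om w = x)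
    (hinj : ∀ w : W0, algebraMap W0 Om w = 0 → w = 0)
    {Gam' : Type} [SMul Gam' Om] {act' : Gam' → M → M} {S0 : Set (M → Om)}
    (h0 : ApproxGen W1 O act' S0)
    (hstab : ∀ (g : G), ∀ s ∈ S0, star act g s ∈ S0)
    (hdual : ∃ (V : Subgroup G) (_ : V.FiniteIndex) (r : ℕ) (w w' : Fin r → W1),
      (∀ v ∈ V, ∀ s ∈ S0, star act v s = s) ∧
      (∀ v ∈ V, ∀ i, v • algebraMap W1 Om (w i) = algebraMap W1 Om (w i)) ∧
      (∀ g ∈ V, ∑ i, (g • algebraMap W1 Om (w i)) * algebraMap W1 Om (w' i) = 1) ∧
      (∀ g : G, g ∉ V → ∑ i, (g • algebraMap W1 Om (w i)) * algebraMap W1 Om (w' i) = 0))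
    (htr : ∀ D : Finset W1, ∃ (V : Subgroup G) (_ : V.FiniteIndex) (u : W1),
      (∀ v ∈ V, ∀ d ∈ D, v • algebraMap W1 Om d = algebraMap W1 Om d) ∧
      (∀ v ∈ V, v • algebraMap W1 Om u = algebraMap W1 Om u) ∧
      cosetSum V (fun g => g • algebraMap W1 Om u) = 1) :
    ∃ S1 : Set (M → Om), ApproxGen W0 O act S1 := by
  classical
  obtain ⟨V, hVfin, r, w, w', hVS0, hVw, hd1, hd0⟩ := hdual
  have hW0O : ∀ z : W0, algebraMap W0 Om z ∈ O := fun z => by
    obtain ⟨w1, hw1⟩ := hW01 z
    rw [← hw1]
    exact hW1O w1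
  -- the new generators
  set Θ : (M → Om) × Fin r → (M → Om) := fun q => theta V act (algebraMap W1 Om (w q.2)) q.1
    with hΘ
  set S1 : Set (M → Om) := Θ '' (S0 ×ˢ (Set.univ : Set (Fin r))) with hS1
  have hS1inv : ∀ θ ∈ S1, ∀ g : G, star act g θ = θ := by
    rintro _ ⟨q, ⟨hq, -⟩, rfl⟩ g
    exact theta_star V hactmul (fun v hv => hVw v hv q.2) (fun v hv => hVS0 v hv q.1 hq) g
  have hS1span : ∀ θ ∈ S1, θ ∈ Submodule.span W1 S0 := by
    rintro _ ⟨q, ⟨hq, -⟩, rfl⟩
    exact theta_mem_span V hW1G hstab (w q.2) hq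
  have hS1adj : ∀ θ ∈ S1, θ ∈ Algebra.adjoin W1 S0 := fun θ hθ =>
    Algebra.span_le_adjoin W1 S0 (hS1span θ hθ)
  -- descent identity: `S0 ⊆ W1 · S1`
  have hident : ∀ s ∈ S0, ∑ i, algebraMap W1 Om (w' i) •
      theta V act (algebraMap W1 Om (w i)) s = s := fun s hs =>
    descent_identity V (fun i => algebraMap W1 Om (w i)) (fun i => algebraMap W1 Om (w' i))
      (fun v hv => hVS0 v hv s hs) hd1 hd0
  have hS0span : ∀ s ∈ S0, s ∈ Submodule.span W1 (Algebra.adjoin W0 S1 : Set (M → Om)) := by
    intro s hs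
    rw [← hident s hs]
    refine Submodule.sum_mem _ fun i _ => ?_
    rw [algebraMap_smul]
    refine Submodule.smul_mem _ _ (Submodule.subset_span ?_)
    exact Algebra.subset_adjoin ⟨(s, i), ⟨hs, Set.mem_univ i⟩, rfl⟩
  refine ⟨S1, ?_, ?_, ?_, ?_, ?_⟩
  · exact (h0.fin.prod Set.finite_univ).image Θ
  · rintro _ ⟨q, ⟨hq, -⟩, rfl⟩ m
    exact theta_mem V hO (hW1O _) (h0.int q.1 hq) m
  · intro θ hθ g m
    exact eqv_of_star_eq hact1 hactmul (hS1inv θ hθ g) m
  · intro x y hxy
    apply h0.sep
    intro s hs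
    rw [← hident s hs]
    simp only [Finset.sum_apply, Pi.smul_apply]
    refine Finset.sum_congr rfl fun i _ => ?_
    have := hxy (Θ (s, i)) ⟨(s, i), ⟨hs, Set.mem_univ i⟩, rfl⟩
    show _ • Θ (s, i) x = _ • Θ (s, i) y
    rw [this]
  · intro θ hθ w0 hw0
    obtain ⟨w1, hw1⟩ := hW01 w0
    have hw1ne : w1 ≠ 0 := by
      rintro rfl
      rw [map_zero] at hw1
      exact hw0 (hinj w0 hw1.symm)
    obtain ⟨t, ht, hsmall⟩ := approxComul_adjoin hW1O h0.int
      (fun s hs => h0.comul s hs w1 hw1ne) (hS1adj θ hθ)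
    have ht' := tensorSpan_le_span (W0 := W0) hS0span ht
    obtain ⟨D, hD⟩ := exists_level_avg_mem (act := act) hO hW1O hW0fix hfix hS1inv ht'
    obtain ⟨V', hV'fin, u, hV'D, hV'u, htru⟩ := htr D
    haveI := hV'fin
    refine ⟨cosetSum V' (fun ρ => (ρ • algebraMap W1 Om u) • star2 act ρ t),
      hD V' hV'D u hV'u, ?_⟩
    -- the difference is the average of the difference
    set Δ : M × M → Om := fun p => θ (p.1 + p.2) - t p with hΔdef
    have hΔsmall : SmallOn O w0 Δ := by
      intro p
      obtain ⟨o, ho, h⟩ := hsmall p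
      exact ⟨o, ho, by rw [← hw1]; exact h⟩
    have havg := smallOn_cosetSum (act := act) hO hW0fix V' (hW1O u) hΔsmall
    refine havg.congr ?_
    have e : ∀ ρ : G, (ρ • algebraMap W1 Om u) • star2 act ρ Δ =
        (ρ • algebraMap W1 Om u) • (fun p : M × M => θ (p.1 + p.2)) -
          (ρ • algebraMap W1 Om u) • star2 act ρ t := by
      intro ρ
      have : Δ = (fun p : M × M => θ (p.1 + p.2)) - t := rfl
      rw [this, star2_sub, star2_comp_add hactadd, hS1inv θ hθ ρ, smul_sub]
    rw [cosetSum_congr V' e]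
    have e2 : cosetSum V' (fun ρ => (ρ • algebraMap W1 Om u) • (fun p : M × M => θ (p.1 + p.2)) -
        (ρ • algebraMap W1 Om u) • star2 act ρ t) =
        cosetSum V' (fun ρ => (ρ • algebraMap W1 Om u) • (fun p : M × M => θ (p.1 + p.2))) -
        cosetSum V' (fun ρ => (ρ • algebraMap W1 Om u) • star2 act ρ t) := by
      rw [eq_sub_iff_add_eq, ← cosetSum_add]
      refine cosetSum_congr V' fun ρ => ?_
      rw [sub_add_cancel]
    rw [e2, cosetSum_smul_const, htru, one_smul]
    rfl

end Main

end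

end Fermat.Agent.FF.BASE.Descent2
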