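/-
Programme FF (S19), chapter BASE (helper7): **dual pairs for finite unramified extensions**
(finding T/iface/FF-DUALPAIR of helper2): the arithmetic input of the unramified descent `Our ℓ → ℤ_ℓ`.

`exists_dualPair` : for every open subgroup `VS ⊇ Iq ℓ` of `Gq ℓ` there are a finite-index `V ≤ VS` and
`V`-fixed `w, w' : Fin r → Our ℓ` with `∑ i, τ (w i) * w' i = [τ ∈ V]` for all `τ : Gq ℓ`.

Route: `ζ` a primitive `(ℓ^m − 1)`-th root of unity (`φ^m` trivial on the given finite level), `V` the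
stabilizer of `ζ`; distinct roots of unity of order prime to `ℓ` are at distance `1`; the Vandermonde
matrix of the conjugates of `ζ` is invertible over `Our ℓ`.
-/
import Mathlib
import Fermat.Agent.TW.LOC.UnramGq4
import Fermat.Agent.TW.FLAT.UnrBase7

set_option autoImplicit false
set_option linter.unusedSectionVars false
set_option linter.style.longLine false

open Fermat.Agent.PT.PRO.LevelCoh28 Fermat.Agent.PT.GLUE.Objects21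
open Fermat.Agent.TW.LOC.Defs2 Fermat.Agent.TW.LOC.TameProfinite4 Fermat.Agent.TW.LOC.UnramGq4
open Fermat.Agent.TW.FLAT.UnrBase7
open scoped IntermediateField

namespace Fermat.Agent.FF.BASE.DualPair7

noncomputable section

variable (ℓ : ℕ) [Fact ℓ.Prime]

local notation "Ω" => PadicAlgCl ℓ

/-! ### norms of roots of unity -/

theorem norm_natCast_eq_one {N : ℕ} (hN : ℓ.Coprime N) : ‖(N : Ω)‖ = 1 := by
  have h1 : ((N : ℚ_[ℓ]) : Ω) = (N : Ω) := map_natCast (algebraMap ℚ_[ℓ] Ω) N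
  rw [← h1, PadicAlgCl.norm_extends, Padic.norm_natCast_eq_one_iff]
  exact hN

theorem norm_sub_le_one {a b : Ω} (ha : ‖a‖ ≤ 1) (hb : ‖b‖ ≤ 1) : ‖a - b‖ ≤ 1 :=
  le_trans (norm_sub_le_max' ℓ a b) (max_le ha hb)

theorem norm_root {ξ : Ω} {N : ℕ} (hN : N ≠ 0) (h : ξ ^ N = 1) : ‖ξ‖ = 1 := by
  have h1 : ‖ξ‖ ^ N = 1 := by rw [← norm_pow, h, norm_one]
  exact (pow_eq_one_iff_of_nonneg (norm_nonneg _) hN).mp h1

/-- `‖1 − ζ^c‖ = 1` for `0 < c < N`, `ζ` a primitive `N`-th root of unity, `ℓ ∤ N`. -/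
theorem norm_one_sub_pow {ζ : Ω} {n : ℕ} (hζ : IsPrimitiveRoot ζ (n + 1)) (hcop : ℓ.Coprime (n + 1))
    {k : ℕ} (hk : k < n) : ‖1 - ζ ^ (k + 1)‖ = 1 := by
  have hprod := hζ.prod_one_sub_pow_eq_order
  have hnorm : ∏ j ∈ Finset.range n, ‖1 - ζ ^ (j + 1)‖ = 1 := by
    rw [← norm_prod, hprod]
    have : ((n : Ω) + 1) = ((n + 1 : ℕ) : Ω) := by push_cast; ring
    rw [this]
    exact norm_natCast_eq_one ℓ hcop
  have hζ1 : ‖ζ‖ = 1 := norm_root ℓ (Nat.succ_ne_zero n) hζ.pow_eq_one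
  have hle : ∀ j ∈ Finset.range n, ‖1 - ζ ^ (j + 1)‖ ≤ 1 := fun j _ =>
    norm_sub_le_one ℓ (by rw [norm_one]) (by rw [norm_pow, hζ1, one_pow])
  have hmem : k ∈ Finset.range n := Finset.mem_range.mpr hk
  rw [← Finset.mul_prod_erase _ _ hmem] at hnorm
  have h2 : ∏ j ∈ (Finset.range n).erase k, ‖1 - ζ ^ (j + 1)‖ ≤ 1 :=
    Finset.prod_le_one (fun j _ => norm_nonneg _) fun j hj => hle j (Finset.mem_of_mem_erase hj)
  have h3 : 0 ≤ ‖1 - ζ ^ (k + 1)‖ := norm_nonneg _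
  have h4 := hle k hmem
  nlinarith [mul_le_mul_of_nonneg_left h2 h3]

/-- distinct `N`-th roots of unity (`ℓ ∤ N`) are at distance `1`. -/
theorem norm_sub_eq_one {ζ : Ω} {N : ℕ} (hN : 0 < N) (hζ : IsPrimitiveRoot ζ N)
    (hcop : ℓ.Coprime N) {ξ ξ' : Ω} (hξ : ξ ^ N = 1) (hξ' : ξ' ^ N = 1) (hne : ξ ≠ ξ') :
    ‖ξ - ξ'‖ = 1 := by
  obtain ⟨n, rfl⟩ : ∃ n, N = n + 1 := ⟨N - 1, by omega⟩
  have : NeZero (n + 1) := ⟨Nat.succ_ne_zero n⟩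
  obtain ⟨a, ha, rfl⟩ := hζ.eq_pow_of_pow_eq_one hξ
  obtain ⟨b, hb, rfl⟩ := hζ.eq_pow_of_pow_eq_one hξ'
  have hζ1 : ‖ζ‖ = 1 := norm_root ℓ (Nat.succ_ne_zero n) hζ.pow_eq_one
  have key : ∀ a b : ℕ, a < b → b < n + 1 → ‖ζ ^ a - ζ ^ b‖ = 1 := by
    intro a b hab hb
    obtain ⟨c, rfl⟩ : ∃ c, b = a + (c + 1) := ⟨b - a - 1, by omega⟩
    have : ζ ^ a - ζ ^ (a + (c + 1)) = ζ ^ a * (1 - ζ ^ (c + 1)) := by ring
    rw [this, norm_mul, norm_pow, hζ1, one_pow, one_mul]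
    exact norm_one_sub_pow ℓ hζ hcop (by omega)
  rcases lt_trichotomy a b with h | h | h
  · exact key a b h hb
  · exact absurd (by rw [h]) hne
  · rw [norm_sub_rev]; exact key b a h ha

/-! ### iterates of a Frobenius lift -/

theorem norm_pow_sub_pow_lt {a b : Ω} (ha : ‖a‖ ≤ 1) (hb : ‖b‖ ≤ 1) (hab : ‖a - b‖ < 1) (n : ℕ) :
    ‖a ^ n - b ^ n‖ < 1 := by
  induction n with
  | zero => simp
  | succ n ih =>
    have : a ^ (n + 1) - b ^ (n + 1) = a ^ n * (a - b) + (a ^ n - b ^ n) * b := by ring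
    rw [this]
    refine lt_of_le_of_lt (PadicAlgCl.isNonarchimedean ℓ _ _) (max_lt ?_ ?_)
    · rw [norm_mul, norm_pow]
      calc ‖a‖ ^ n * ‖a - b‖ ≤ 1 * ‖a - b‖ :=
            mul_le_mul_of_nonneg_right (pow_le_one₀ (norm_nonneg _) ha) (norm_nonneg _)
        _ < 1 := by rw [one_mul]; exact hab
    · rw [norm_mul]
      calc ‖a ^ n - b ^ n‖ * ‖b‖ ≤ ‖a ^ n - b ^ n‖ * 1 :=
            mul_le_mul_of_nonneg_left hb (norm_nonneg _)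
        _ < 1 := by rw [mul_one]; exact ih

theorem frob_iterate {φ : Gq ℓ} (hφ : IsFrobLift ℓ φ) (j : ℕ) (x : Ω) (hx : ‖x‖ ≤ 1) :
    ‖(φ ^ j) x - x ^ (ℓ ^ j)‖ < 1 := by
  induction j with
  | zero => simp
  | succ j ih =>
    set y := (φ ^ j) x with hy
    have hy1 : ‖y‖ ≤ 1 := by rw [hy, norm_galois]; exact hx
    have hxj : ‖x ^ (ℓ ^ j)‖ ≤ 1 := by rw [norm_pow]; exact pow_le_one₀ (norm_nonneg _) hx
    have h1 : (φ ^ (j + 1)) x = φ y := by rw [pow_succ', AlgEquiv.mul_apply]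
    have h2 : x ^ (ℓ ^ (j + 1)) = (x ^ (ℓ ^ j)) ^ ℓ := by rw [pow_succ, pow_mul]
    have h3 : φ y - (x ^ (ℓ ^ j)) ^ ℓ = (φ y - y ^ ℓ) + (y ^ ℓ - (x ^ (ℓ ^ j)) ^ ℓ) := by ring
    rw [h1, h2, h3]
    exact lt_of_le_of_lt (PadicAlgCl.isNonarchimedean ℓ _ _)
      (max_lt (hφ y hy1) (norm_pow_sub_pow_lt ℓ hy1 hxj ih ℓ))

/-! ### levels -/

local instance isAlgClosurePadicD7 : IsAlgClosure ℚ_[ℓ] (PadicAlgCl ℓ) :=
  ⟨inferInstance, inferInstance⟩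
local instance isGaloisPadicD7 : IsGalois ℚ_[ℓ] (PadicAlgCl ℓ) :=
  IsAlgClosure.isGalois ℚ_[ℓ] (PadicAlgCl ℓ)

/-- a level inside the fixing subgroup of a finite extension. -/
theorem exists_level_le (E : IntermediateField ℚ_[ℓ] Ω) [FiniteDimensional ℚ_[ℓ] E] :
    ∃ U ∈ (levelLoc ℓ).sets, U ≤ E.fixingSubgroup := by
  obtain ⟨F, hF, hle⟩ := Fermat.Agent.PT.BR.LocInj13.exists_le_localField ℓ E
  refine ⟨F.fixingSubgroup.comap (localGaloisToGlobal ℓ), ⟨_, ⟨F, hF, rfl⟩, rfl⟩, ?_⟩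
  intro τ hτ
  rw [Subgroup.mem_comap, ← Fermat.Agent.PT.BR.LocInj13.mem_fixingSubgroup_localField_iff] at hτ
  exact IntermediateField.fixingSubgroup_antitone hle hτ

/-- some positive power of any element lies in the fixing subgroup of a finite extension. -/
theorem exists_pow_mem_fixingSubgroup (L : IntermediateField ℚ_[ℓ] Ω) [FiniteDimensional ℚ_[ℓ] L]
    (φ : Gq ℓ) : ∃ m : ℕ, 0 < m ∧ φ ^ m ∈ L.fixingSubgroup := by
  obtain ⟨L', hfd, hgal, hle⟩ := exists_galois_ge ℓ L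
  have := hfd
  have := hgal
  refine ⟨orderOf (resL ℓ L' φ), orderOf_pos _, ?_⟩
  apply IntermediateField.fixingSubgroup_antitone hle
  rw [← ker_resL, MonoidHom.mem_ker, map_pow, pow_orderOf_eq_one]

/-! ### the stabilizer of a root of unity -/

/-- the stabilizer of `ζ` in `Gq`. -/
def stab (ζ : Ω) : Subgroup (Gq ℓ) := MulAction.stabilizer (Gq ℓ) ζ

theorem mem_stab {ζ : Ω} {τ : Gq ℓ} : τ ∈ stab ℓ ζ ↔ τ ζ = ζ := Iff.rfl

section Root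

theorem conj_pow_eq_one {ζ : Ω} {N : ℕ} (hζ : IsPrimitiveRoot ζ N) (τ : Gq ℓ) :
    (τ ζ) ^ N = 1 := by
  rw [← map_pow, hζ.pow_eq_one, map_one]

/-- an automorphism moving `ζ` to within distance `< 1` of an `N`-th root of unity moves it there. -/
theorem eq_of_norm_lt {ζ : Ω} {N : ℕ} (hN : 0 < N) (hζ : IsPrimitiveRoot ζ N) (hcop : ℓ.Coprime N)
    (τ : Gq ℓ) {ξ : Ω} (hξ : ξ ^ N = 1) (h : ‖τ ζ - ξ‖ < 1) : τ ζ = ξ := by
  by_contra hne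
  have := norm_sub_eq_one ℓ hN hζ hcop (conj_pow_eq_one ℓ hζ τ) hξ hne
  rw [this] at h
  exact lt_irrefl _ h

theorem Iq_le_stab {ζ : Ω} {N : ℕ} (hN : 0 < N) (hζ : IsPrimitiveRoot ζ N) (hcop : ℓ.Coprime N) :
    Iq ℓ ≤ stab ℓ ζ := by
  intro τ hτ
  rw [mem_stab]
  have hζ1 : ‖ζ‖ ≤ 1 := (norm_root ℓ hN.ne' hζ.pow_eq_one).le
  exact eq_of_norm_lt ℓ hN hζ hcop τ hζ.pow_eq_one ((mem_Iq_iff_norm ℓ τ).mp hτ ζ hζ1)

theorem frob_pow_apply {ζ : Ω} {N : ℕ} (hN : 0 < N) (hζ : IsPrimitiveRoot ζ N)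
    (hcop : ℓ.Coprime N) {φ : Gq ℓ} (hφ : IsFrobLift ℓ φ) (j : ℕ) :
    (φ ^ j) ζ = ζ ^ (ℓ ^ j) := by
  have hζ1 : ‖ζ‖ ≤ 1 := (norm_root ℓ hN.ne' hζ.pow_eq_one).le
  apply eq_of_norm_lt ℓ hN hζ hcop (φ ^ j)
  · rw [← pow_mul, mul_comm, pow_mul, hζ.pow_eq_one, one_pow]
  · exact frob_iterate ℓ hφ j ζ hζ1

/-- every conjugate of `ζ` is fixed by the stabilizer of `ζ`. -/
theorem stab_fixes_conj {ζ : Ω} {N : ℕ} (hN : 0 < N) (hζ : IsPrimitiveRoot ζ N) {σ : Gq ℓ}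
    (hσ : σ ∈ stab ℓ ζ) (τ : Gq ℓ) : σ (τ ζ) = τ ζ := by
  have : NeZero N := ⟨hN.ne'⟩
  obtain ⟨c, _, hc⟩ := hζ.eq_pow_of_pow_eq_one (conj_pow_eq_one ℓ hζ τ)
  rw [← hc, map_pow, (mem_stab ℓ).mp hσ]

theorem finiteIndex_stab {ζ : Ω} {N : ℕ} (hN : 0 < N) (hζ : IsPrimitiveRoot ζ N) :
    (stab ℓ ζ).FiniteIndex := by
  have hsub : MulAction.orbit (Gq ℓ) ζ ⊆
      ((Polynomial.nthRootsFinset N (1 : Ω) : Finset Ω) : Set Ω) := by
    rintro _ ⟨τ, rfl⟩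
    rw [Finset.mem_coe, Polynomial.mem_nthRootsFinset hN]
    exact conj_pow_eq_one ℓ hζ τ
  have h1 : Finite (MulAction.orbit (Gq ℓ) ζ) := ((Finset.finite_toSet _).subset hsub).to_subtype
  have h2 : Finite (Gq ℓ ⧸ MulAction.stabilizer (Gq ℓ) ζ) :=
    Finite.of_equiv _ (MulAction.orbitEquivQuotientStabilizer (Gq ℓ) ζ)
  exact @Subgroup.finiteIndex_of_finite_quotient _ _ (MulAction.stabilizer (Gq ℓ) ζ) h2

end Root

/-- `ℓ^m − 1 ∣ ℓ^j − 1` implies `m ∣ j`. -/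
theorem dvd_of_pow_sub_one_dvd {m j : ℕ} (hm : 0 < m) (h : ℓ ^ m - 1 ∣ ℓ ^ j - 1) : m ∣ j := by
  have hℓ : 2 ≤ ℓ := (Fact.out : ℓ.Prime).two_le
  have hℓ0 : 0 < ℓ := by omega
  have hN1 : 1 ≤ ℓ ^ m := Nat.one_le_pow _ _ hℓ0
  have hmod : ℓ ^ m ≡ 1 [MOD ℓ ^ m - 1] := by
    have : ℓ ^ m = (ℓ ^ m - 1) + 1 := by omega
    conv_lhs => rw [this]
    unfold Nat.ModEq
    rw [Nat.add_mod_left]
  have hj : ℓ ^ j ≡ 1 [MOD ℓ ^ m - 1] := by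
    have h1 : 1 ≤ ℓ ^ j := Nat.one_le_pow _ _ hℓ0
    exact ((Nat.modEq_iff_dvd' h1).mpr h).symm
  -- j = m * q + s
  have hdiv : ℓ ^ j = (ℓ ^ m) ^ (j / m) * ℓ ^ (j % m) := by
    rw [← pow_mul, ← pow_add, Nat.div_add_mod]
  have hs : ℓ ^ (j % m) ≡ 1 [MOD ℓ ^ m - 1] := by
    have h2 : (ℓ ^ m) ^ (j / m) * ℓ ^ (j % m) ≡ 1 ^ (j / m) * ℓ ^ (j % m) [MOD ℓ ^ m - 1] :=
      Nat.ModEq.mul_right _ (hmod.pow _)
    rw [one_pow, one_mul, ← hdiv] at h2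
    exact h2.symm.trans hj
  have hslt : ℓ ^ (j % m) < ℓ ^ m := Nat.pow_lt_pow_right hℓ (Nat.mod_lt _ hm)
  have hdvd : ℓ ^ m - 1 ∣ ℓ ^ (j % m) - 1 :=
    (Nat.modEq_iff_dvd' (Nat.one_le_pow _ _ hℓ0)).mp hs.symm
  have hzero : ℓ ^ (j % m) - 1 = 0 := by
    by_contra hne
    have := Nat.le_of_dvd (Nat.pos_of_ne_zero hne) hdvd
    omega
  have hone : ℓ ^ (j % m) = 1 := by
    have := Nat.one_le_pow (j % m) ℓ hℓ0
    omega
  have : j % m = 0 := by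
    by_contra hne
    have := Nat.one_lt_pow hne hℓ
    omega
  exact Nat.dvd_of_mod_eq_zero this

/-! ### the stabilizer is small -/

theorem pow_sub_one_pos {m : ℕ} (hm : 0 < m) : 0 < ℓ ^ m - 1 := by
  have hℓ : 2 ≤ ℓ := (Fact.out : ℓ.Prime).two_le
  have : ℓ ^ 1 ≤ ℓ ^ m := Nat.pow_le_pow_right (by omega) hm
  rw [pow_one] at this
  omega

theorem coprime_pow_sub_one {m : ℕ} (hm : 0 < m) : ℓ.Coprime (ℓ ^ m - 1) := by
  have hp : ℓ.Prime := Fact.out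
  rw [hp.coprime_iff_not_dvd]
  intro h
  have h1 : ℓ ∣ ℓ ^ m := dvd_pow_self ℓ hm.ne'
  have h2 : ℓ ∣ ℓ ^ m - (ℓ ^ m - 1) := Nat.dvd_sub h1 h
  have h3 : ℓ ^ m - (ℓ ^ m - 1) = 1 := by
    have := pow_sub_one_pos ℓ hm
    omega
  rw [h3] at h2
  exact hp.one_lt.ne' (Nat.dvd_one.mp h2)

/-- the stabilizer of a primitive `(ℓ^m − 1)`-th root of unity is contained in every subgroup containing
the inertia group and a finite level on which `φ^m` is trivial. -/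
theorem stab_le {ζ : Ω} {m : ℕ} (hm : 0 < m) (hζ : IsPrimitiveRoot ζ (ℓ ^ m - 1)) {φ : Gq ℓ}
    (hφ : IsFrobLift ℓ φ) (L : IntermediateField ℚ_[ℓ] Ω) [FiniteDimensional ℚ_[ℓ] L]
    (hφm : φ ^ m ∈ L.fixingSubgroup) (VS : Subgroup (Gq ℓ)) (hI : Iq ℓ ≤ VS)
    (hL : L.fixingSubgroup ≤ VS) : stab ℓ ζ ≤ VS := by
  have hN := pow_sub_one_pos ℓ hm
  have hcop := coprime_pow_sub_one ℓ hm
  intro g hg
  have hfdζ : FiniteDimensional ℚ_[ℓ] ℚ_[ℓ]⟮ζ⟯ :=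
    IntermediateField.adjoin.finiteDimensional (Algebra.IsIntegral.isIntegral ζ)
  obtain ⟨U, hU, hUle⟩ := exists_level_le ℓ (L ⊔ ℚ_[ℓ]⟮ζ⟯)
  obtain ⟨j, τ, hτ, u, hu, rfl⟩ := gen_of_isFrobLift ℓ hφ hU g
  have hu' := hUle hu
  have huL : u ∈ L.fixingSubgroup := IntermediateField.fixingSubgroup_antitone le_sup_left hu'
  have huζ : u ζ = ζ := by
    have h1 : u ∈ (ℚ_[ℓ]⟮ζ⟯).fixingSubgroup :=
      IntermediateField.fixingSubgroup_antitone le_sup_right hu'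
    exact (IntermediateField.mem_fixingSubgroup_iff _ _).mp h1 ζ
      (IntermediateField.mem_adjoin_simple_self _ ζ)
  have hτζ : τ ζ = ζ := (mem_stab ℓ).mp (Iq_le_stab ℓ hN hζ hcop hτ)
  have hgζ : (φ ^ j) ζ = ζ := by
    have h1 : (φ ^ j * τ * u) ζ = ζ := (mem_stab ℓ).mp hg
    rw [AlgEquiv.mul_apply, AlgEquiv.mul_apply, huζ, hτζ] at h1
    exact h1
  rw [frob_pow_apply ℓ hN hζ hcop hφ j] at hgζ
  -- `ζ ^ (ℓ^j − 1) = 1`
  have hℓj : 1 ≤ ℓ ^ j := Nat.one_le_pow _ _ (Fact.out : ℓ.Prime).pos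
  have hζ0 : ζ ≠ 0 := hζ.ne_zero hN.ne'
  have hpow : ζ ^ (ℓ ^ j - 1) = 1 := by
    have h1 : ζ ^ (ℓ ^ j - 1) * ζ = 1 * ζ := by
      rw [← pow_succ, Nat.sub_add_cancel hℓj, one_mul, hgζ]
    exact mul_right_cancel₀ hζ0 h1
  have hdvd : m ∣ j := dvd_of_pow_sub_one_dvd ℓ hm (hζ.dvd_of_pow_eq_one _ hpow)
  obtain ⟨c, rfl⟩ := hdvd
  have hφj : φ ^ (m * c) ∈ VS := by
    rw [pow_mul]
    exact hL (Subgroup.pow_mem _ hφm c)
  exact VS.mul_mem (VS.mul_mem hφj (hI hτ)) (hL huL)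

/-! ### the Vandermonde dual pair -/

theorem mem_Our_of_conj {ζ : Ω} {N : ℕ} (hN : 0 < N) (hζ : IsPrimitiveRoot ζ N)
    (hcop : ℓ.Coprime N) (τ : Gq ℓ) : τ ζ ∈ Our ℓ := by
  rw [mem_Our_iff]
  refine ⟨(norm_root ℓ hN.ne' (conj_pow_eq_one ℓ hζ τ)).le, fun σ hσ => ?_⟩
  exact stab_fixes_conj ℓ hN hζ (Iq_le_stab ℓ hN hζ hcop hσ) τ

open Classical in
theorem exists_dualPair_of_root {ζ : Ω} {N : ℕ} (hN : 0 < N) (hζ : IsPrimitiveRoot ζ N)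
    (hcop : ℓ.Coprime N) :
    ∃ (r : ℕ) (w w' : Fin r → Our ℓ),
      (∀ τ ∈ stab ℓ ζ, ∀ i, τ (w i : Ω) = w i) ∧ (∀ τ ∈ stab ℓ ζ, ∀ i, τ (w' i : Ω) = w' i) ∧
      ∀ τ : Gq ℓ, ∑ i, τ (w i : Ω) * (w' i : Ω) = if τ ∈ stab ℓ ζ then 1 else 0 := by
  classical
  -- the orbit of `ζ`
  have hsub : MulAction.orbit (Gq ℓ) ζ ⊆
      ((Polynomial.nthRootsFinset N (1 : Ω) : Finset Ω) : Set Ω) := by
    rintro _ ⟨τ, rfl⟩
    rw [Finset.mem_coe, Polynomial.mem_nthRootsFinset hN]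
    exact conj_pow_eq_one ℓ hζ τ
  haveI : Finite (MulAction.orbit (Gq ℓ) ζ) := ((Finset.finite_toSet _).subset hsub).to_subtype
  haveI : Fintype (MulAction.orbit (Gq ℓ) ζ) := Fintype.ofFinite _
  set r := Fintype.card (MulAction.orbit (Gq ℓ) ζ) with hr
  let e : MulAction.orbit (Gq ℓ) ζ ≃ Fin r := Fintype.equivFin _
  -- the conjugates, in `Our`
  have hzmem : ∀ a : Fin r, ((e.symm a : MulAction.orbit (Gq ℓ) ζ) : Ω) ∈ Our ℓ := by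
    intro a
    obtain ⟨τ, hτ⟩ := (e.symm a).2
    rw [← hτ]
    exact mem_Our_of_conj ℓ hN hζ hcop τ
  let zO : Fin r → Our ℓ := fun a => ⟨((e.symm a : MulAction.orbit (Gq ℓ) ζ) : Ω), hzmem a⟩
  have hzO : ∀ a, ((zO a : Our ℓ) : Ω) = ((e.symm a : MulAction.orbit (Gq ℓ) ζ) : Ω) := fun a => rfl
  have hzpow : ∀ a, ((zO a : Our ℓ) : Ω) ^ N = 1 := by
    intro a
    obtain ⟨τ, hτ⟩ := (e.symm a).2
    rw [hzO, ← hτ]
    exact conj_pow_eq_one ℓ hζ τ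
  have hzinj : ∀ a b, ((zO a : Our ℓ) : Ω) = ((zO b : Our ℓ) : Ω) → a = b := by
    intro a b h
    have : e.symm a = e.symm b := Subtype.ext h
    exact e.symm.injective this
  -- the Vandermonde matrix
  let P : Matrix (Fin r) (Fin r) (Our ℓ) := Matrix.vandermonde zO
  have hdet : IsUnit P.det := by
    apply isUnit_of_norm_eq_one
    rw [Matrix.det_vandermonde]
    have hcoe : ((∏ i : Fin r, ∏ j ∈ Finset.Ioi i, (zO j - zO i) : Our ℓ) : Ω)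
        = ∏ i : Fin r, ∏ j ∈ Finset.Ioi i, (((zO j : Our ℓ) : Ω) - ((zO i : Our ℓ) : Ω)) := by
      push_cast
      rfl
    rw [hcoe, norm_prod]
    refine Finset.prod_eq_one fun i _ => ?_
    rw [norm_prod]
    refine Finset.prod_eq_one fun j hj => ?_
    have hne : ((zO j : Our ℓ) : Ω) ≠ ((zO i : Our ℓ) : Ω) := fun h =>
      (Finset.mem_Ioi.mp hj).ne' (hzinj j i h)
    exact norm_sub_eq_one ℓ hN hζ hcop (hzpow j) (hzpow i) hne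
  have hPQ : P * P⁻¹ = 1 := Matrix.mul_nonsing_inv P hdet
  have hQP : P⁻¹ * P = 1 := Matrix.nonsing_inv_mul P hdet
  -- the index of `ζ`
  let a₀ : Fin r := e ⟨ζ, MulAction.mem_orbit_self ζ⟩
  have ha₀ : ((zO a₀ : Our ℓ) : Ω) = ζ := by
    rw [hzO]
    show ((e.symm (e ⟨ζ, MulAction.mem_orbit_self ζ⟩) : MulAction.orbit (Gq ℓ) ζ) : Ω) = ζ
    rw [Equiv.symm_apply_apply]
  -- the index of `τ ζ`
  let idx : Gq ℓ → Fin r := fun τ => e ⟨τ ζ, ⟨τ, rfl⟩⟩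
  have hidx : ∀ τ, ((zO (idx τ) : Our ℓ) : Ω) = τ ζ := by
    intro τ
    rw [hzO]
    show ((e.symm (e ⟨τ ζ, ⟨τ, rfl⟩⟩) : MulAction.orbit (Gq ℓ) ζ) : Ω) = τ ζ
    rw [Equiv.symm_apply_apply]
  have hidx_eq : ∀ τ, idx τ = a₀ ↔ τ ∈ stab ℓ ζ := by
    intro τ
    rw [mem_stab]
    constructor
    · intro h
      rw [← hidx τ, h, ha₀]
    · intro h
      apply hzinj
      rw [hidx, ha₀, h]
  -- entries of `P` in `Ω`
  have hPcoe : ∀ a i, ((P a i : Our ℓ) : Ω) = ((zO a : Our ℓ) : Ω) ^ (i : ℕ) := by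
    intro a i
    show ((zO a ^ (i : ℕ) : Our ℓ) : Ω) = _
    push_cast
    rfl
  -- the stabilizer fixes the entries of `P`
  have hPfix : ∀ σ ∈ stab ℓ ζ, ∀ a i, σ ((P a i : Our ℓ) : Ω) = ((P a i : Our ℓ) : Ω) := by
    intro σ hσ a i
    rw [hPcoe, map_pow]
    congr 1
    obtain ⟨τ, hτ⟩ := (e.symm a).2
    rw [hzO, ← hτ]
    exact stab_fixes_conj ℓ hN hζ hσ τ
  -- products in `Ω`
  have hmulcoe : ∀ (A B : Matrix (Fin r) (Fin r) (Our ℓ)) (a b : Fin r),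
      (((A * B) a b : Our ℓ) : Ω) = ∑ i, ((A a i : Our ℓ) : Ω) * ((B i b : Our ℓ) : Ω) := by
    intro A B a b
    rw [Matrix.mul_apply]
    push_cast
    rfl
  -- the stabilizer fixes the entries of the inverse
  have hQfix : ∀ σ ∈ stab ℓ ζ, ∀ i b, σ ((P⁻¹ i b : Our ℓ) : Ω) = ((P⁻¹ i b : Our ℓ) : Ω) := by
    intro σ hσ i b
    -- `σ Q = (Q P) (σ Q) = Q (P σQ) = Q (σ (P Q)) = Q`
    have h1 : ∀ a, ∑ i', ((P a i' : Our ℓ) : Ω) * σ ((P⁻¹ i' b : Our ℓ) : Ω)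
        = if a = b then 1 else 0 := by
      intro a
      have h2 := congrArg σ (hmulcoe P P⁻¹ a b)
      rw [hPQ, map_sum] at h2
      have h3 : σ (((1 : Matrix (Fin r) (Fin r) (Our ℓ)) a b : Our ℓ) : Ω)
          = if a = b then 1 else 0 := by
        rw [Matrix.one_apply]
        split_ifs
        · simp
        · simp
      rw [h3] at h2
      rw [h2]
      refine Finset.sum_congr rfl fun i' _ => ?_
      rw [map_mul, hPfix σ hσ]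
    have h4 : σ ((P⁻¹ i b : Our ℓ) : Ω)
        = ∑ a, ((P⁻¹ i a : Our ℓ) : Ω) *
            ∑ i', ((P a i' : Our ℓ) : Ω) * σ ((P⁻¹ i' b : Our ℓ) : Ω) := by
      simp_rw [Finset.mul_sum]
      rw [Finset.sum_comm]
      have h5 : ∀ i', ∑ a, ((P⁻¹ i a : Our ℓ) : Ω) *
          (((P a i' : Our ℓ) : Ω) * σ ((P⁻¹ i' b : Our ℓ) : Ω))
          = (if i = i' then 1 else 0) * σ ((P⁻¹ i' b : Our ℓ) : Ω) := by
        intro i'
        have h6 := hmulcoe P⁻¹ P i i'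
        rw [hQP, Matrix.one_apply] at h6
        simp_rw [← mul_assoc]
        rw [← Finset.sum_mul, ← h6]
        split_ifs <;> simp
      simp_rw [h5]
      simp
    rw [h4]
    simp_rw [h1]
    simp
  refine ⟨r, fun i => zO a₀ ^ (i : ℕ), fun i => P⁻¹ i a₀, ?_, ?_, ?_⟩
  · intro σ hσ i
    have := hPfix σ hσ a₀ i
    exact this
  · intro σ hσ i
    exact hQfix σ hσ i a₀
  · intro τ
    have h1 : ∀ i : Fin r, τ (((zO a₀ ^ (i : ℕ) : Our ℓ)) : Ω) = ((P (idx τ) i : Our ℓ) : Ω) := by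
      intro i
      rw [hPcoe, hidx]
      push_cast
      rw [map_pow, ha₀]
    simp_rw [h1]
    rw [← hmulcoe, hPQ, Matrix.one_apply]
    by_cases h : τ ∈ stab ℓ ζ
    · rw [if_pos h, if_pos ((hidx_eq τ).mpr h)]; simp
    · rw [if_neg h, if_neg (fun h' => h ((hidx_eq τ).mp h'))]; simp

/-! ### the theorem -/

open Classical in
/-- **Dual pairs** (finding T/iface/FF-DUALPAIR). -/
theorem exists_dualPair (VS : Subgroup (Gq ℓ)) (hI : Iq ℓ ≤ VS)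
    (hopen : ∃ L : IntermediateField ℚ_[ℓ] (PadicAlgCl ℓ), FiniteDimensional ℚ_[ℓ] L ∧
      L.fixingSubgroup ≤ VS) :
    ∃ (V : Subgroup (Gq ℓ)) (r : ℕ) (w w' : Fin r → Our ℓ),
      V ≤ VS ∧ V.FiniteIndex ∧
      (∀ τ ∈ V, ∀ i, τ (w i : PadicAlgCl ℓ) = w i) ∧
      (∀ τ ∈ V, ∀ i, τ (w' i : PadicAlgCl ℓ) = w' i) ∧
      ∀ τ : Gq ℓ, ∑ i, τ (w i : PadicAlgCl ℓ) * (w' i : PadicAlgCl ℓ) = if τ ∈ V then 1 else 0 := by
  classical
  obtain ⟨L, hfd, hL⟩ := hopen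
  haveI := hfd
  obtain ⟨φ, hφ⟩ := exists_isFrobLift ℓ
  obtain ⟨m, hm, hφm⟩ := exists_pow_mem_fixingSubgroup ℓ L φ
  have hN := pow_sub_one_pos ℓ hm
  have hcop := coprime_pow_sub_one ℓ hm
  -- a primitive root of unity of order `ℓ^m − 1`
  haveI : NeZero ((ℓ ^ m - 1 : ℕ) : Ω) := ⟨by
    intro h0
    have := norm_natCast_eq_one ℓ hcop
    rw [h0, norm_zero] at this
    exact zero_ne_one this⟩
  obtain ⟨ζ, hζ⟩ := HasEnoughRootsOfUnity.exists_primitiveRoot Ω (ℓ ^ m - 1)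
  obtain ⟨r, w, w', hw, hw', hsum⟩ := exists_dualPair_of_root ℓ hN hζ hcop
  exact ⟨stab ℓ ζ, r, w, w', stab_le ℓ hm hζ hφ L hφm VS hI hL, finiteIndex_stab ℓ hN hζ, hw, hw',
    hsum⟩

end

end Fermat.Agent.FF.BASE.DualPair7
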