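/-
Programme FF (S19), chapter BASE (helper2), file GlobalDescent2: FROM `ℤ_ℓ` TO `ℤ_(ℓ)`.

`Ω = PadicAlgCl ℓ`, `ι = padicEmbedding ℓ : ℚ̄ → Ω`, `Gq ℓ = Gal(Ω/ℚ_ℓ)`, `rq ℓ : Gq ℓ → G_ℚ`,
`M` a finite `G_ℚ`-set (through `act`).

* `EqvQ act f` : `f : M → ℚ̄` is `G_ℚ`-equivariant; `EqvL ℓ act g` : `g : M → Ω` is `Gq ℓ`-equivariant.
* `span_eqvQ_eq_top` : if the equivariant functions separate `M`, their `ℚ̄`-span is everything.
* `exists_global_approx` : every `Gq`-equivariant `g : M → Ω` is approximated, uniformly on `M`, by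
  `ι ∘ f`, `f` `G_ℚ`-equivariant (`ℚ` is dense in `ℚ_ℓ`).
* `approxGen_global` : **global descent** of approximate Hopf generating sets.
-/
import Mathlib
import Fermat.Agent.FF.BASE.ApproxGen2
import Fermat.Agent.TW.FLAT.FlatModule6
import Fermat.Agent.TW.FLAT.IntrinsicLocal7

set_option autoImplicit false
set_option linter.unusedSectionVars false

namespace Fermat.Agent.FF.BASE.GlobalDescent2

open Fermat.Agent.FF.BASE.ApproxGen2 Fermat.Agent.TW.FLAT.FlatModule6 Fermat.Agent.TW.LOC.Defs2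
  Fermat.Agent.TW.FLAT.IntrinsicLocal7 GaloisRep

noncomputable section

open scoped BigOperators

section Global

variable {M : Type} [AddCommGroup M] [Finite M] (act : GQ → M → M)

/-- `G_ℚ`-equivariant functions `M → ℚ̄`. -/
def EqvQ (f : M → Qb) : Prop := ∀ (σ : GQ) (m : M), f (act σ m) = σ (f m)

variable {act}

lemma EqvQ.add {f g : M → Qb} (hf : EqvQ act f) (hg : EqvQ act g) : EqvQ act (f + g) := by
  intro σ m
  rw [Pi.add_apply, Pi.add_apply, hf, hg, map_add]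

lemma EqvQ.mul {f g : M → Qb} (hf : EqvQ act f) (hg : EqvQ act g) : EqvQ act (f * g) := by
  intro σ m
  rw [Pi.mul_apply, Pi.mul_apply, hf, hg, map_mul]

lemma EqvQ.one : EqvQ act (1 : M → Qb) := by
  intro σ m
  rw [Pi.one_apply, Pi.one_apply, map_one]

lemma EqvQ.zero : EqvQ act (0 : M → Qb) := by
  intro σ m
  rw [Pi.zero_apply, Pi.zero_apply, map_zero]

lemma EqvQ.qsmul {f : M → Qb} (hf : EqvQ act f) (q : ℚ) : EqvQ act (q • f) := by
  intro σ m
  rw [Pi.smul_apply, Pi.smul_apply, hf, Algebra.smul_def, Algebra.smul_def, map_mul,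
    AlgEquiv.commutes]

lemma EqvQ.sum {κ : Type*} (s : Finset κ) {f : κ → M → Qb} (hf : ∀ k ∈ s, EqvQ act (f k)) :
    EqvQ act (∑ k ∈ s, f k) := by
  classical
  induction s using Finset.induction_on with
  | empty => rw [Finset.sum_empty]; exact EqvQ.zero
  | insert a s ha ih =>
    rw [Finset.sum_insert ha]
    exact (hf a (Finset.mem_insert_self a s)).add
      (ih fun k hk => hf k (Finset.mem_insert_of_mem hk))

variable (act)

/-- **Interpolation**: if the equivariant functions separate the points of the finite set `M`,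
their `ℚ̄`-span is the space of all functions. -/
theorem span_eqvQ_eq_top (hsep : ∀ x y : M, x ≠ y → ∃ f : M → Qb, EqvQ act f ∧ f x ≠ f y) :
    Submodule.span Qb {f : M → Qb | EqvQ act f} = ⊤ := by
  classical
  have := Fintype.ofFinite M
  -- the span is a subalgebra
  set B : Subalgebra Qb (M → Qb) := Algebra.adjoin Qb {f : M → Qb | EqvQ act f} with hB
  have hBspan : Subalgebra.toSubmodule B = Submodule.span Qb {f : M → Qb | EqvQ act f} := by
    rw [hB, Algebra.adjoin_eq_span]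
    congr 1
    apply le_antisymm
    · intro f hf
      induction hf using Submonoid.closure_induction with
      | mem f hf => exact hf
      | one => exact EqvQ.one
      | mul f g _ _ hf hg => exact hf.mul hg
    · exact Submonoid.subset_closure
  rw [← hBspan, eq_top_iff]
  intro h _
  -- indicator functions
  have hδ : ∀ m : M, (Pi.single m (1 : Qb) : M → Qb) ∈ B := by
    intro m
    have hfac : ∀ m' : M, m' ≠ m → ∃ u ∈ B, u m = 1 ∧ u m' = 0 := by
      intro m' hm'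
      obtain ⟨f, hf, hne⟩ := hsep m m' (Ne.symm hm')
      have hfB : f ∈ B := Algebra.subset_adjoin hf
      refine ⟨(f m - f m')⁻¹ • (f - algebraMap Qb (M → Qb) (f m')), ?_, ?_, ?_⟩
      · exact Subalgebra.smul_mem _ (Subalgebra.sub_mem _ hfB (Subalgebra.algebraMap_mem _ _)) _
      · rw [Pi.smul_apply, Pi.sub_apply, Pi.algebraMap_apply, Algebra.algebraMap_self_apply, smul_eq_mul]
        exact inv_mul_cancel₀ (sub_ne_zero.2 hne)
      · rw [Pi.smul_apply, Pi.sub_apply, Pi.algebraMap_apply, Algebra.algebraMap_self_apply,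
          sub_self, smul_zero]
    choose u huB hu1 hu0 using hfac
    have hprod : (Pi.single m (1 : Qb) : M → Qb) =
        ∏ m' ∈ (Finset.univ.filter fun m' : M => m' ≠ m).attach,
          u m'.1 (Finset.mem_filter.1 m'.2).2 := by
      funext x
      rw [Finset.prod_apply]
      by_cases hx : x = m
      · subst hx
        rw [Pi.single_eq_same]
        symm
        apply Finset.prod_eq_one
        intro m' _
        exact hu1 _ _
      · rw [Pi.single_eq_of_ne hx]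
        symm
        apply Finset.prod_eq_zero (i := ⟨x, Finset.mem_filter.2 ⟨Finset.mem_univ _, hx⟩⟩)
          (Finset.mem_attach _ _)
        exact hu0 _ _
    rw [hprod]
    exact Subalgebra.prod_mem _ fun m' _ => huB _ _
  have hh : h = ∑ m : M, h m • (Pi.single m (1 : Qb) : M → Qb) := by
    funext x
    rw [Finset.sum_apply, Finset.sum_eq_single x]
    · rw [Pi.smul_apply, Pi.single_eq_same, smul_eq_mul, mul_one]
    · intro m _ hmx
      rw [Pi.smul_apply, Pi.single_eq_of_ne (Ne.symm hmx), smul_zero]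
    · intro hx
      exact absurd (Finset.mem_univ x) hx
  rw [hh]
  exact Subalgebra.sum_mem _ fun m _ => Subalgebra.smul_mem _ (hδ m) _

/-- A `ℚ̄`-basis of `M → ℚ̄`, indexed by `M`, consisting of equivariant functions. -/
theorem exists_eqvQ_basis (hsep : ∀ x y : M, x ≠ y → ∃ f : M → Qb, EqvQ act f ∧ f x ≠ f y) :
    ∃ b : Module.Basis M Qb (M → Qb), ∀ a, EqvQ act (b a) := by
  classical
  obtain ⟨t, htS, hspan, hli⟩ := exists_linearIndependent Qb {f : M → Qb | EqvQ act f}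
  have htop : ⊤ ≤ Submodule.span Qb (Set.range (Subtype.val : t → M → Qb)) := by
    rw [Subtype.range_coe_subtype, Set.ofPred_mem_eq, hspan, span_eqvQ_eq_top act hsep]
  let b0 : Module.Basis t Qb (M → Qb) := Module.Basis.mk hli htop
  let e : t ≃ M := b0.indexEquiv (Pi.basisFun Qb M)
  refine ⟨b0.reindex e, fun a => ?_⟩
  rw [Module.Basis.reindex_apply, Module.Basis.mk_apply]
  exact htS (e.symm a).2

end Global

section Local

variable (ℓ : ℕ) [Fact ℓ.Prime]

local notation "Ω" => PadicAlgCl ℓ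

local instance isAlgebraicQpbar_gd : Algebra.IsAlgebraic ℚ_[ℓ] (PadicAlgCl ℓ) :=
  AlgebraicClosure.isAlgebraic ℚ_[ℓ]
local instance isAlgClosureQpbar_gd : IsAlgClosure ℚ_[ℓ] (PadicAlgCl ℓ) :=
  ⟨inferInstance, inferInstance⟩
local instance isGaloisQpbar_gd : IsGalois ℚ_[ℓ] (PadicAlgCl ℓ) :=
  IsAlgClosure.isGalois ℚ_[ℓ] (PadicAlgCl ℓ)

variable {M : Type} [AddCommGroup M] [Finite M] (act : GQ → M → M)

/-- `Gq ℓ`-equivariant functions `M → Ω` (the action on `M` through `rq ℓ`). -/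
def EqvL (g : M → Ω) : Prop := ∀ (τ : Gq ℓ) (m : M), g (act (rq ℓ τ) m) = τ (g m)

variable {ℓ act}

lemma EqvL.sub {g h : M → Ω} (hg : EqvL ℓ act g) (hh : EqvL ℓ act h) : EqvL ℓ act (g - h) := by
  intro τ m
  rw [Pi.sub_apply, Pi.sub_apply, hg, hh, map_sub]

lemma EqvL.const_mul {g : M → Ω} (hg : EqvL ℓ act g) (c : ℚ_[ℓ]) :
    EqvL ℓ act (fun m => algebraMap ℚ_[ℓ] Ω c * g m) := by
  intro τ m
  show algebraMap ℚ_[ℓ] Ω c * g (act (rq ℓ τ) m) = τ (algebraMap ℚ_[ℓ] Ω c * g m)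
  rw [hg, map_mul, AlgEquiv.commutes]

lemma eqvL_comp_of_eqvQ {f : M → Qb} (hf : EqvQ act f) :
    EqvL ℓ act (fun m => padicEmbedding ℓ (f m)) := by
  intro τ m
  show padicEmbedding ℓ (f (act (rq ℓ τ) m)) = τ (padicEmbedding ℓ (f m))
  rw [hf, padicEmbedding_localGaloisToGlobal]

variable (ℓ act)

/-- **Density**: a `Gq ℓ`-equivariant function `M → Ω` is uniformly approximated by `ι ∘ f`, `f` a
`G_ℚ`-equivariant function `M → ℚ̄`. -/
theorem exists_global_approx (hact1 : ∀ x, act 1 x = x)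
    (hactmul : ∀ σ τ x, act (σ * τ) x = act σ (act τ x))
    (hsep : ∀ x y : M, x ≠ y → ∃ f : M → Qb, EqvQ act f ∧ f x ≠ f y)
    {g : M → Ω} (hg : EqvL ℓ act g) {ε : ℝ} (hε : 0 < ε) :
    ∃ f : M → Qb, EqvQ act f ∧ ∀ m, ‖g m - padicEmbedding ℓ (f m)‖ ≤ ε := by
  classical
  have := Fintype.ofFinite M
  obtain ⟨b, hb⟩ := exists_eqvQ_basis act hsep
  -- the matrix of values, over `ℚ̄` and over `Ω`
  let F : Matrix M M Qb := (Pi.basisFun Qb M).toMatrix b
  have hFapp : ∀ m a, F m a = b a m := fun m a => by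
    simp only [F, Module.Basis.toMatrix_apply, Pi.basisFun_repr]
  have hFdet : IsUnit F.det := by
    have := (Pi.basisFun Qb M).invertibleToMatrix b
    exact (Matrix.isUnit_iff_isUnit_det F).1 (isUnit_of_invertible F)
  let G : Matrix M M Ω := F.map (padicEmbedding ℓ)
  have hGdet : IsUnit G.det := by
    have h1 : G.det = padicEmbedding ℓ F.det := by
      have := RingHom.map_det (padicEmbedding ℓ).toRingHom F
      simpa [G] using this.symm
    rw [h1]
    exact hFdet.map (padicEmbedding ℓ)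
  have hGapp : ∀ m a, G m a = padicEmbedding ℓ (b a m) := fun m a => by
    simp only [G, Matrix.map_apply, hFapp]
  -- coordinates of `g`
  let c : M → Ω := G⁻¹.mulVec g
  have hc : ∀ m, ∑ a, padicEmbedding ℓ (b a m) * c a = g m := by
    intro m
    have h1 : G.mulVec c = g := by
      simp only [c, Matrix.mulVec_mulVec, Matrix.mul_nonsing_inv G hGdet, Matrix.one_mulVec]
    have h2 := congrFun h1 m
    rw [Matrix.mulVec, dotProduct] at h2
    simpa [hGapp] using h2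
  have huniq : ∀ c' : M → Ω, (∀ m, ∑ a, padicEmbedding ℓ (b a m) * c' a = g m) → c' = c := by
    intro c' hc'
    have h1 : G.mulVec c' = g := by
      funext m
      rw [Matrix.mulVec, dotProduct]
      simpa [hGapp] using hc' m
    have h2 : G⁻¹.mulVec (G.mulVec c') = c := by rw [h1]
    rwa [Matrix.mulVec_mulVec, Matrix.nonsing_inv_mul G hGdet, Matrix.one_mulVec] at h2
  -- the coordinates are fixed by `Gq`
  have hfix : ∀ (τ : Gq ℓ) (a : M), τ (c a) = c a := by
    intro τ a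
    have hc' : (fun a => τ (c a)) = c := by
      apply huniq
      intro m
      have hm : act (rq ℓ τ) (act (rq ℓ τ)⁻¹ m) = m := by
        rw [← hactmul, mul_inv_cancel, hact1]
      set m' := act (rq ℓ τ)⁻¹ m with hm'
      have h1 := congrArg τ (hc m')
      rw [map_sum] at h1
      rw [← hm, hg τ m', ← h1]
      refine Finset.sum_congr rfl fun a _ => ?_
      rw [map_mul, hb a (rq ℓ τ) m', padicEmbedding_localGaloisToGlobal]
    exact congrFun hc' a
  have hrat : ∀ a, ∃ x : ℚ_[ℓ], algebraMap ℚ_[ℓ] Ω x = c a := fun a =>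
    (InfiniteGalois.mem_range_algebraMap_iff_fixed (k := ℚ_[ℓ]) (K := PadicAlgCl ℓ) (c a)).2
      fun τ => hfix τ a
  choose x hx using hrat
  -- a bound for the entries
  obtain ⟨B, hB1, hB⟩ : ∃ B : ℝ, 1 ≤ B ∧ ∀ m a, ‖padicEmbedding ℓ (b a m)‖ ≤ B := by
    refine ⟨max 1 (∑ m, ∑ a, ‖padicEmbedding ℓ (b a m)‖), le_max_left _ _, fun m a => ?_⟩
    refine le_trans ?_ (le_max_right _ _)
    refine le_trans ?_ (Finset.single_le_sum (f := fun m => ∑ a, ‖padicEmbedding ℓ (b a m)‖)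
      (fun _ _ => Finset.sum_nonneg fun _ _ => norm_nonneg _) (Finset.mem_univ m))
    exact Finset.single_le_sum (f := fun a => ‖padicEmbedding ℓ (b a m)‖)
      (fun _ _ => norm_nonneg _) (Finset.mem_univ a)
  have hBpos : 0 < B := lt_of_lt_of_le one_pos hB1
  have hq : ∀ a, ∃ q : ℚ, ‖x a - (q : ℚ_[ℓ])‖ < ε / B := fun a =>
    Padic.rat_dense ℓ (x a) (div_pos hε hBpos)
  choose q hq using hq
  refine ⟨∑ a, q a • b a, EqvQ.sum _ fun a _ => (hb a).qsmul (q a), fun m => ?_⟩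
  have h1 : padicEmbedding ℓ ((∑ a, q a • b a) m) =
      ∑ a, padicEmbedding ℓ (b a m) * algebraMap ℚ_[ℓ] Ω (q a : ℚ_[ℓ]) := by
    rw [Finset.sum_apply, map_sum]
    refine Finset.sum_congr rfl fun a _ => ?_
    rw [Pi.smul_apply, Algebra.smul_def, map_mul, mul_comm]
    congr 1
    rw [AlgHom.commutes, map_ratCast, eq_ratCast]
  rw [← hc m, h1, ← Finset.sum_sub_distrib]
  apply IsUltrametricDist.norm_sum_le_of_forall_le_of_nonneg hε.le
  intro a _
  rw [← mul_sub, norm_mul, ← hx a, ← map_sub, PadicAlgCl.norm_extends]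
  calc ‖padicEmbedding ℓ (b a m)‖ * ‖x a - (q a : ℚ_[ℓ])‖ ≤ B * (ε / B) :=
        mul_le_mul (hB m a) (hq a).le (norm_nonneg _) hBpos.le
    _ = ε := by field_simp

end Local

/-! ### The main theorem -/

section Main

variable (ℓ : ℕ) [Fact ℓ.Prime]

local notation "Ω" => PadicAlgCl ℓ

/-- The unit ball of `Ω` as a subring. -/
abbrev ballS : Subring (PadicAlgCl ℓ) := (unitBall ℓ).toSubring

/-- `padicPlace ℓ` as a subring of `ℚ̄`. -/
abbrev placeS : Subring Qb := (padicPlace ℓ).toSubring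

lemma mem_ballS_iff {x : Ω} : x ∈ ballS ℓ ↔ ‖x‖ ≤ 1 := Iff.rfl

lemma mem_placeS_iff {x : Qb} : x ∈ placeS ℓ ↔ ‖padicEmbedding ℓ x‖ ≤ 1 := by
  show x ∈ padicPlace ℓ ↔ _
  rw [mem_padicPlace_iff, ← NNReal.coe_le_coe, coe_nnnorm, NNReal.coe_one]

lemma algebraMap_padicInt_mem_ballS (v : ℤ_[ℓ]) : algebraMap ℤ_[ℓ] Ω v ∈ ballS ℓ := by
  rw [mem_ballS_iff, IsScalarTower.algebraMap_apply ℤ_[ℓ] ℚ_[ℓ] Ω, PadicAlgCl.norm_extends]
  exact PadicInt.norm_le_one v

lemma padicEmbedding_algebraMap_rat (q : ℚ) :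
    padicEmbedding ℓ (algebraMap ℚ Qb q) = algebraMap ℚ_[ℓ] Ω (q : ℚ_[ℓ]) := by
  rw [AlgHom.commutes, map_ratCast, eq_ratCast]

lemma padicEmbedding_algebraMap_Zl (v : ratLocalizedAt ℓ) :
    padicEmbedding ℓ (algebraMap (ratLocalizedAt ℓ) Qb v) =
      algebraMap ℚ_[ℓ] Ω (((v : ℚ) : ℚ_[ℓ])) := by
  rw [IsScalarTower.algebraMap_apply (ratLocalizedAt ℓ) ℚ Qb, padicEmbedding_algebraMap_rat]
  rfl

lemma algebraMap_Zl_mem_placeS (v : ratLocalizedAt ℓ) :
    algebraMap (ratLocalizedAt ℓ) Qb v ∈ placeS ℓ := by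
  rw [mem_placeS_iff, padicEmbedding_algebraMap_Zl, PadicAlgCl.norm_extends]
  apply Padic.norm_rat_le_one
  have h : (v : ℚ).den.Coprime ℓ := v.2
  intro hdvd
  have h1 : ℓ ∣ Nat.gcd (v : ℚ).den ℓ := Nat.dvd_gcd hdvd dvd_rfl
  rw [h] at h1
  exact (Fact.out : ℓ.Prime).one_lt.ne' (Nat.dvd_one.1 h1)

lemma norm_natCast_ell : ‖((ℓ : ℕ) : Ω)‖ = (ℓ : ℝ)⁻¹ := norm_natCast_p ℓ

variable {M : Type} [AddCommGroup M] [Finite M] (act : GQ → M → M)

/-- Bilinear expansion of pure tensors. -/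
lemma tens_mem_span_range {W : Type} [CommRing W] {Om : Type} [CommRing Om] [Algebra W Om]
    {κ : Type} (g : κ → M → Om) {a b : M → Om}
    (ha : a ∈ Submodule.span W (Set.range g)) (hb : b ∈ Submodule.span W (Set.range g)) :
    tens a b ∈ Submodule.span W (Set.range fun p : κ × κ => tens (g p.1) (g p.2)) := by
  induction ha using Submodule.span_induction with
  | mem a ha =>
    obtain ⟨c, rfl⟩ := ha
    induction hb using Submodule.span_induction with
    | mem b hb =>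
      obtain ⟨d, rfl⟩ := hb
      exact Submodule.subset_span ⟨(c, d), rfl⟩
    | zero =>
      have : tens (g c) (0 : M → Om) = 0 := by funext p; simp
      rw [this]; exact Submodule.zero_mem _
    | add x y _ _ hx hy => rw [tens_add_right]; exact Submodule.add_mem _ hx hy
    | smul w x _ hx => rw [tens_smul_right]; exact Submodule.smul_mem _ w hx
  | zero =>
    have : tens (0 : M → Om) b = 0 := by funext p; simp
    rw [this]; exact Submodule.zero_mem _
  | add x y _ _ hx hy => rw [tens_add_left]; exact Submodule.add_mem _ hx hy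
  | smul w x _ hx => rw [tens_smul_left]; exact Submodule.smul_mem _ w hx

/-- **Global descent.**  An approximate Hopf generating set over `(ℤ_ℓ, Ω, Gq ℓ)` for the
`G_ℚ`-set `M` (acting through `rq ℓ`) whose algebra `ℤ_ℓ[S₁]` is a finite module containing all
sufficiently small equivariant functions gives one over `(ℤ_(ℓ), ℚ̄, G_ℚ)`, with
`O = padicPlace ℓ`. -/
theorem approxGen_global (hact1 : ∀ x, act 1 x = x)
    (hactmul : ∀ σ τ x, act (σ * τ) x = act σ (act τ x))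
    (hsep : ∀ x y : M, x ≠ y → ∃ f : M → Qb, EqvQ act f ∧ f x ≠ f y)
    {S₁ : Set (M → Ω)}
    (h : ApproxGen ℤ_[ℓ] (ballS ℓ) (fun τ : Gq ℓ => act (rq ℓ τ)) S₁)
    (hfg : (Subalgebra.toSubmodule (Algebra.adjoin ℤ_[ℓ] S₁)).FG)
    (hlat : ∃ N : ℕ, ∀ g : M → Ω, EqvL ℓ act g → (∀ m, ‖g m‖ ≤ ((ℓ : ℝ)⁻¹) ^ N) →
      g ∈ Algebra.adjoin ℤ_[ℓ] S₁) :
    ∃ S₂ : Set (M → Qb), ApproxGen (ratLocalizedAt ℓ) (placeS ℓ) act S₂ := by
  classical
  have := Fintype.ofFinite M
  obtain ⟨N, hN⟩ := hlat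
  have hℓ1 : (1 : ℝ) < ℓ := by exact_mod_cast (Fact.out : ℓ.Prime).one_lt
  have hℓ0 : (0 : ℝ) < ℓ := by linarith
  have hℓΩ : ((ℓ : ℕ) : Ω) ≠ 0 := by exact_mod_cast (Fact.out : ℓ.Prime).ne_zero
  set Hl : Subalgebra ℤ_[ℓ] (M → Ω) := Algebra.adjoin ℤ_[ℓ] S₁ with hHl
  have hWO := algebraMap_padicInt_mem_ballS ℓ
  -- elements of `Hl` are equivariant and integral
  have hHeq : ∀ f ∈ Hl, EqvL ℓ act f := fun f hf τ m => eqv_adjoin h.eqv hf τ m
  have hHint : ∀ f ∈ Hl, ∀ m, ‖f m‖ ≤ 1 := fun f hf m => int_adjoin hWO h.int hf m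
  -- module generators of `Hl`
  obtain ⟨n, lam, hlam⟩ := Submodule.fg_iff_exists_fin_generating_family.1 hfg
  have hlamH : ∀ a, lam a ∈ Hl := fun a => by
    have : lam a ∈ Subalgebra.toSubmodule Hl := by
      rw [← hlam]; exact Submodule.subset_span ⟨a, rfl⟩
    exact this
  -- approximate the generators by global equivariant functions
  have hεpos : 0 < ((ℓ : ℝ)⁻¹) ^ (N + 1) := pow_pos (inv_pos.2 hℓ0) _
  have happ : ∀ a, ∃ f : M → Qb, EqvQ act f ∧
      ∀ m, ‖lam a m - padicEmbedding ℓ (f m)‖ ≤ ((ℓ : ℝ)⁻¹) ^ (N + 1) := fun a =>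
    exists_global_approx ℓ act hact1 hactmul hsep (hHeq _ (hlamH a)) hεpos
  choose gf hgfE hgfA using happ
  -- `(lam a - ι ∘ gf a) / ℓ ∈ Hl`
  have hdiv : ∀ a, (fun m => algebraMap ℚ_[ℓ] Ω ((ℓ : ℚ_[ℓ])⁻¹) *
      (lam a m - padicEmbedding ℓ (gf a m))) ∈ Hl := by
    intro a
    apply hN
    · exact ((hHeq _ (hlamH a)).sub (eqvL_comp_of_eqvQ (hgfE a))).const_mul _
    · intro m
      rw [norm_mul, PadicAlgCl.norm_extends, norm_inv, Padic.norm_p, inv_inv]
      calc (ℓ : ℝ) * ‖lam a m - padicEmbedding ℓ (gf a m)‖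
          ≤ (ℓ : ℝ) * ((ℓ : ℝ)⁻¹) ^ (N + 1) := mul_le_mul_of_nonneg_left (hgfA a m) hℓ0.le
        _ = ((ℓ : ℝ)⁻¹) ^ N := by rw [pow_succ]; field_simp
  -- hence `ι ∘ gf a ∈ Hl`
  have hgfH : ∀ a, (fun m => padicEmbedding ℓ (gf a m)) ∈ Hl := by
    intro a
    have h1 : (fun m => padicEmbedding ℓ (gf a m)) = lam a - (ℓ : ℤ_[ℓ]) •
        (fun m => algebraMap ℚ_[ℓ] Ω ((ℓ : ℚ_[ℓ])⁻¹) *
          (lam a m - padicEmbedding ℓ (gf a m))) := by
      funext m
      rw [Pi.sub_apply, Pi.smul_apply, Algebra.smul_def,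
        IsScalarTower.algebraMap_apply ℤ_[ℓ] ℚ_[ℓ] Ω, ← mul_assoc, ← map_mul]
      have : ((algebraMap ℤ_[ℓ] ℚ_[ℓ]) (ℓ : ℤ_[ℓ])) * ((ℓ : ℚ_[ℓ])⁻¹) = 1 := by
        rw [map_natCast]
        exact mul_inv_cancel₀ (by exact_mod_cast (Fact.out : ℓ.Prime).ne_zero)
      rw [this, map_one, one_mul]
      ring
    rw [h1]
    exact Subalgebra.sub_mem _ (hlamH a) (Subalgebra.smul_mem _ (hdiv a) _)
  -- Nakayama: the `ι ∘ gf a` span `Hl`
  set G : Fin n → M → Ω := fun a m => padicEmbedding ℓ (gf a m) with hG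
  have hspanG : Submodule.span ℤ_[ℓ] (Set.range G) = Subalgebra.toSubmodule Hl := by
    apply le_antisymm
    · rw [Submodule.span_le]
      rintro _ ⟨a, rfl⟩
      exact hgfH a
    · apply Submodule.le_of_le_smul_of_le_jacobson_bot (I := Ideal.span {(ℓ : ℤ_[ℓ])}) hfg
      · rw [IsLocalRing.jacobson_eq_maximalIdeal ⊥ bot_ne_top, PadicInt.maximalIdeal_eq_span_p]
      · rw [← hlam, Submodule.span_le]
        rintro _ ⟨a, rfl⟩
        have h1 : lam a = G a + (ℓ : ℤ_[ℓ]) • (fun m => algebraMap ℚ_[ℓ] Ω ((ℓ : ℚ_[ℓ])⁻¹) *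
            (lam a m - padicEmbedding ℓ (gf a m))) := by
          funext m
          rw [Pi.add_apply, Pi.smul_apply, Algebra.smul_def,
            IsScalarTower.algebraMap_apply ℤ_[ℓ] ℚ_[ℓ] Ω, ← mul_assoc, ← map_mul]
          have : ((algebraMap ℤ_[ℓ] ℚ_[ℓ]) (ℓ : ℤ_[ℓ])) * ((ℓ : ℚ_[ℓ])⁻¹) = 1 := by
            rw [map_natCast]
            exact mul_inv_cancel₀ (by exact_mod_cast (Fact.out : ℓ.Prime).ne_zero)
          rw [this, map_one, one_mul]
          ring
        rw [h1]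
        refine Submodule.add_mem_sup (Submodule.subset_span ⟨a, rfl⟩) ?_
        refine Submodule.smul_mem_smul (Ideal.subset_span rfl) ?_
        rw [hlam]
        exact hdiv a
  -- the global generating set
  refine ⟨Set.range gf, ?_⟩
  have hS₂adj : ∀ a, gf a ∈ Algebra.adjoin (ratLocalizedAt ℓ) (Set.range gf) := fun a =>
    Algebra.subset_adjoin ⟨a, rfl⟩
  refine ⟨Set.finite_range gf, ?_, ?_, ?_, ?_⟩
  · rintro _ ⟨a, rfl⟩ m
    rw [mem_placeS_iff]
    exact hHint _ (hgfH a) m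
  · rintro _ ⟨a, rfl⟩ σ m
    exact hgfE a σ m
  · intro x y hxy
    apply h.sep
    intro s hs
    have hsH : s ∈ Subalgebra.toSubmodule Hl := Algebra.subset_adjoin hs
    rw [← hspanG] at hsH
    obtain ⟨c, rfl⟩ := (Submodule.mem_span_range_iff_exists_fun ℤ_[ℓ]).1 hsH
    simp only [Finset.sum_apply, Pi.smul_apply]
    refine Finset.sum_congr rfl fun a _ => ?_
    rw [hG]
    simp only
    rw [hxy (gf a) ⟨a, rfl⟩]
  · rintro _ ⟨a, rfl⟩ w hw
    obtain ⟨k, u, hwu⟩ := Fermat.Agent.IG.VAL.Zl13.exists_eq_pow_mul_unit ℓ hw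
    -- local approximate comultiplication modulo `ℓ ^ k`
    have hℓk : ((ℓ : ℤ_[ℓ]) ^ k) ≠ 0 := pow_ne_zero _ (by exact_mod_cast (Fact.out : ℓ.Prime).ne_zero)
    obtain ⟨t, ht, htsmall⟩ := approxComul_adjoin hWO h.int
      (fun s hs => h.comul s hs _ hℓk) (hgfH a)
    -- expand `t` in the `tens (G c) (G d)`
    have ht2 : t ∈ Submodule.span ℤ_[ℓ] (Set.range fun p : Fin n × Fin n => tens (G p.1) (G p.2)) := by
      unfold tensorSpan at ht
      refine Submodule.span_le.2 ?_ ht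
      rintro _ ⟨a', ha', b', hb', rfl⟩
      refine tens_mem_span_range G ?_ ?_
      · rw [hspanG]; exact ha'
      · rw [hspanG]; exact hb'
    obtain ⟨γ, hγ⟩ := (Submodule.mem_span_range_iff_exists_fun ℤ_[ℓ]).1 ht2
    -- integer approximations of the coefficients
    have hz : ∀ p : Fin n × Fin n, ∃ z : ℤ_[ℓ], γ p - ((γ p).appr k : ℤ_[ℓ]) = (ℓ : ℤ_[ℓ]) ^ k * z :=
      fun p => Ideal.mem_span_singleton'.1 (PadicInt.appr_spec k (γ p)) |>.imp fun z hz => by
        rw [← hz, mul_comm]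
    choose z hz using hz
    refine ⟨∑ p : Fin n × Fin n, (((γ p).appr k : ℕ) : ratLocalizedAt ℓ) • tens (gf p.1) (gf p.2),
      Submodule.sum_mem _ fun p _ => Submodule.smul_mem _ _
        (tens_mem_tensorSpan (hS₂adj p.1) (hS₂adj p.2)), ?_⟩
    intro p
    set Fp : Qb := gf a (p.1 + p.2) -
      (∑ q : Fin n × Fin n, (((γ q).appr k : ℕ) : ratLocalizedAt ℓ) • tens (gf q.1) (gf q.2)) p
      with hFp
    -- the norm of `ι Fp`
    have hnorm : ‖padicEmbedding ℓ Fp‖ ≤ ((ℓ : ℝ)⁻¹) ^ k := by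
      obtain ⟨o, ho, heq⟩ := htsmall p
      have h1 : padicEmbedding ℓ Fp = (G a (p.1 + p.2) - t p) +
          ∑ q : Fin n × Fin n, algebraMap ℤ_[ℓ] Ω ((ℓ : ℤ_[ℓ]) ^ k * z q) *
            (G q.1 p.1 * G q.2 p.2) := by
        have e1 : padicEmbedding ℓ ((∑ q : Fin n × Fin n,
            (((γ q).appr k : ℕ) : ratLocalizedAt ℓ) • tens (gf q.1) (gf q.2)) p) =
            ∑ q : Fin n × Fin n, algebraMap ℤ_[ℓ] Ω (((γ q).appr k : ℕ) : ℤ_[ℓ]) *
              (G q.1 p.1 * G q.2 p.2) := by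
          rw [Finset.sum_apply, map_sum]
          refine Finset.sum_congr rfl fun q _ => ?_
          rw [Pi.smul_apply, tens_apply, Algebra.smul_def, map_mul, map_mul,
            padicEmbedding_algebraMap_Zl]
          have hcast : algebraMap ℚ_[ℓ] Ω ((((((γ q).appr k : ℕ) : ratLocalizedAt ℓ) : ℚ) : ℚ_[ℓ])) =
              algebraMap ℤ_[ℓ] Ω (((γ q).appr k : ℕ) : ℤ_[ℓ]) := by
            rw [IsScalarTower.algebraMap_apply ℤ_[ℓ] ℚ_[ℓ] Ω]
            congr 1
          rw [hcast]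
        have e2 : t p = ∑ q : Fin n × Fin n, algebraMap ℤ_[ℓ] Ω (γ q) *
            (G q.1 p.1 * G q.2 p.2) := by
          rw [← hγ, Finset.sum_apply]
          refine Finset.sum_congr rfl fun q _ => ?_
          rw [Pi.smul_apply, tens_apply, Algebra.smul_def]
        have e3 : ∀ q : Fin n × Fin n, algebraMap ℤ_[ℓ] Ω (γ q) =
            algebraMap ℤ_[ℓ] Ω (((γ q).appr k : ℕ) : ℤ_[ℓ]) +
              algebraMap ℤ_[ℓ] Ω ((ℓ : ℤ_[ℓ]) ^ k * z q) := by
          intro q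
          rw [← map_add, ← hz q]
          congr 1
          ring
        have e4 : (∑ q : Fin n × Fin n, algebraMap ℤ_[ℓ] Ω (γ q) * (G q.1 p.1 * G q.2 p.2)) =
            (∑ q : Fin n × Fin n, algebraMap ℤ_[ℓ] Ω (((γ q).appr k : ℕ) : ℤ_[ℓ]) *
              (G q.1 p.1 * G q.2 p.2)) +
            ∑ q : Fin n × Fin n, algebraMap ℤ_[ℓ] Ω ((ℓ : ℤ_[ℓ]) ^ k * z q) *
              (G q.1 p.1 * G q.2 p.2) := by
          rw [← Finset.sum_add_distrib]
          refine Finset.sum_congr rfl fun q _ => ?_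
          rw [e3 q, add_mul]
        rw [hFp, map_sub, e1, e2, e4]
        show G a (p.1 + p.2) - _ = _
        ring
      rw [h1]
      refine le_trans (PadicAlgCl.isNonarchimedean ℓ _ _) (max_le ?_ ?_)
      · have heq' : G a (p.1 + p.2) - t p = (algebraMap ℤ_[ℓ] Ω) (↑ℓ ^ k) * o := heq
        rw [heq', norm_mul, map_pow, map_natCast, norm_pow, norm_natCast_ell]
        exact mul_le_of_le_one_right (pow_nonneg (inv_nonneg.2 hℓ0.le) _) ho
      · apply IsUltrametricDist.norm_sum_le_of_forall_le_of_nonneg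
          (pow_nonneg (inv_nonneg.2 hℓ0.le) _)
        intro q _
        rw [map_mul, map_pow, map_natCast, norm_mul, norm_mul, norm_pow, norm_natCast_ell, mul_assoc]
        refine mul_le_of_le_one_right (pow_nonneg (inv_nonneg.2 hℓ0.le) _) ?_
        refine mul_le_one₀ (hWO _) (norm_nonneg _) ?_
        rw [norm_mul]
        exact mul_le_one₀ (hHint _ (hgfH q.1) _) (norm_nonneg _) (hHint _ (hgfH q.2) _)
    -- divide by `w = ℓ ^ k * u`
    have hwQ : algebraMap (ratLocalizedAt ℓ) Qb w ≠ 0 := by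
      rw [Ne, map_eq_zero_iff _ ((faithfulSMul_iff_algebraMap_injective _ _).1 inferInstance)]
      exact hw
    refine ⟨Fp / algebraMap (ratLocalizedAt ℓ) Qb w, ?_, by
      show Fp = _
      field_simp⟩
    have h2 : Fp / algebraMap (ratLocalizedAt ℓ) Qb w =
        (Fp / ((ℓ : ℕ) : Qb) ^ k) * algebraMap (ratLocalizedAt ℓ) Qb ((u⁻¹ : (ratLocalizedAt ℓ)ˣ) : ratLocalizedAt ℓ) := by
      have hu : algebraMap (ratLocalizedAt ℓ) Qb (u : ratLocalizedAt ℓ) *
          algebraMap (ratLocalizedAt ℓ) Qb ((u⁻¹ : (ratLocalizedAt ℓ)ˣ) : ratLocalizedAt ℓ) = 1 := by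
        rw [← map_mul, Units.mul_inv, map_one]
      have hu0 : algebraMap (ratLocalizedAt ℓ) Qb (u : ratLocalizedAt ℓ) ≠ 0 :=
        left_ne_zero_of_mul_eq_one hu
      have hℓQ : (((ℓ : ℕ) : Qb)) ≠ 0 := by exact_mod_cast (Fact.out : ℓ.Prime).ne_zero
      rw [hwu, map_mul, map_pow, map_natCast]
      field_simp
      rw [mul_assoc, hu, mul_one]
    rw [h2]
    refine Subring.mul_mem _ ?_ (algebraMap_Zl_mem_placeS ℓ _)
    rw [mem_placeS_iff, map_div₀, map_pow, map_natCast, norm_div, norm_pow, norm_natCast_ell]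
    rw [div_le_one (pow_pos (inv_pos.2 hℓ0) _)]
    exact hnorm

end Main

end

end Fermat.Agent.FF.BASE.GlobalDescent2
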