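/-
Programme FF (S19), chapter BASE (helper2), file Place2: THE PLACE `A = padicPlace ℓ` of `ℚ̄`, its
norm, its decomposition and inertia groups, and the UNRAMIFIED INTEGERS `Wur ℓ = A^{Iv}`.

`ι = padicEmbedding ℓ : ℚ̄ → Ω = PadicAlgCl ℓ` (Prelude), `A = padicPlace ℓ = ι⁻¹(unit ball)`.

* `nrm ℓ x = ‖ι x‖` with `nrm_mul`, `nrm_pow`, `nrm_add_le`, `nrm_sub_le`, `nrm_eq_zero`, `nrm_one`,
  `nrm_neg`, `nrm_natCast_self : nrm ℓ ℓ = (ℓ)⁻¹`, `nrm_inv`, `nrm_div`, `nrm_nonneg`, `nrm_ratCast`;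
  `mem_Av_iff : x ∈ padicPlace ℓ ↔ nrm ℓ x ≤ 1`, `mem_nonunits_iff : … ↔ nrm ℓ x < 1`,
  `isUnit_iff`, `liesOverPrime : (padicPlace ℓ).LiesOverPrime ℓ`.
* **rank one**: `exists_pow_mem_span : w ≠ 0 → nrm ℓ c < 1 → ∃ n a, nrm ℓ a ≤ 1 ∧ c ^ n = w * a`,
  `exists_pow_mem_span' : (w : A) ≠ 0 → c ∈ maximalIdeal A → ∃ n, c ^ n ∈ Ideal.span {w}`;
  `dvd_of_nrm_le : nrm ℓ x ≤ nrm ℓ w → w ≠ 0 → ∃ a, nrm ℓ a ≤ 1 ∧ x = w * a`.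
* `Dv ℓ`, `Iv ℓ : Subgroup GQ` (Mathlib's decomposition subgroup, Prelude's `inertiaSubgroupIn`),
  `Iv_le_Dv`, `nrm_smul_of_mem_Dv`, `rq_mem_Dv`, `rq_mem_Iv`, `exists_rq_eq_of_mem_Dv`,
  `exists_rq_eq_of_mem_Iv`, `smul_mem_Av_iff`.
* `Wur ℓ : Subring ℚ̄` (`x ∈ A`, fixed by `Iv`), `mem_Wur_iff`, `Wur_le_placeS`,
  `padicEmbedding_mem_Our : x ∈ Wur ℓ → ι x ∈ Our ℓ`, `smul_mem_Wur` (stable under `Dv`),
  `natCast_mem_Wur`, `inv_mem_Wur` (units), `div_ell_mem_Wur`,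
  `Wur.exists_eq_pow_mul : x ∈ Wur ℓ → x ≠ 0 → ∃ n u, u ∈ Wur ℓ ∧ u⁻¹ ∈ Wur ℓ ∧ x = ℓ ^ n * u`.
-/
import Mathlib
import Fermat.Agent.TW.FLAT.FlatModule6
import Fermat.Agent.TW.FLAT.UnrBase7
import Fermat.Agent.TW.LOC.DecompSurj4

set_option autoImplicit false
set_option linter.unusedSectionVars false

namespace Fermat.Agent.FF.BASE.Place2

open Fermat.Agent.TW.FLAT.FlatModule6 Fermat.Agent.TW.LOC.Defs2 Fermat.Agent.TW.FLAT.UnrBase7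
  Fermat.Agent.TW.LOC.TameProfinite4 Fermat.Agent.TW.LOC.DecompSurj4

noncomputable section

variable (ℓ : ℕ) [Fact ℓ.Prime]

/-- The `ℓ`-adic norm on `ℚ̄` attached to the place `padicPlace ℓ`. -/
def nrm (x : Qb) : ℝ := ‖padicEmbedding ℓ x‖

variable {ℓ}

lemma nrm_def (x : Qb) : nrm ℓ x = ‖padicEmbedding ℓ x‖ := rfl

lemma nrm_nonneg (x : Qb) : 0 ≤ nrm ℓ x := norm_nonneg _

lemma nrm_mul (x y : Qb) : nrm ℓ (x * y) = nrm ℓ x * nrm ℓ y := by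
  rw [nrm_def, map_mul, norm_mul]; rfl

lemma nrm_pow (x : Qb) (n : ℕ) : nrm ℓ (x ^ n) = nrm ℓ x ^ n := by
  rw [nrm_def, map_pow, norm_pow]; rfl

lemma nrm_zero : nrm ℓ (0 : Qb) = 0 := by rw [nrm_def, map_zero, norm_zero]

lemma nrm_one : nrm ℓ (1 : Qb) = 1 := by rw [nrm_def, map_one, norm_one]

lemma nrm_neg (x : Qb) : nrm ℓ (-x) = nrm ℓ x := by rw [nrm_def, map_neg, norm_neg]; rfl

lemma nrm_eq_zero {x : Qb} : nrm ℓ x = 0 ↔ x = 0 := by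
  rw [nrm_def, norm_eq_zero]
  exact map_eq_zero_iff _ (padicEmbedding ℓ).injective

lemma nrm_pos {x : Qb} (hx : x ≠ 0) : 0 < nrm ℓ x :=
  lt_of_le_of_ne (nrm_nonneg x) (fun h => hx (nrm_eq_zero.1 h.symm))

lemma nrm_inv (x : Qb) : nrm ℓ x⁻¹ = (nrm ℓ x)⁻¹ := by
  rw [nrm_def, map_inv₀, norm_inv]; rfl

lemma nrm_div (x y : Qb) : nrm ℓ (x / y) = nrm ℓ x / nrm ℓ y := by
  rw [nrm_def, map_div₀, norm_div]; rfl

lemma nrm_add_le (x y : Qb) : nrm ℓ (x + y) ≤ max (nrm ℓ x) (nrm ℓ y) := by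
  rw [nrm_def, map_add]
  exact PadicAlgCl.isNonarchimedean ℓ _ _

lemma nrm_sub_le (x y : Qb) : nrm ℓ (x - y) ≤ max (nrm ℓ x) (nrm ℓ y) := by
  rw [sub_eq_add_neg, ← nrm_neg y]
  exact nrm_add_le x (-y)

lemma nrm_natCast_self : nrm ℓ ((ℓ : ℕ) : Qb) = (ℓ : ℝ)⁻¹ := by
  rw [nrm_def, map_natCast]
  exact Fermat.Agent.TW.FLAT.IntrinsicLocal7.norm_natCast_p ℓ

lemma nrm_ratCast (q : ℚ) : nrm ℓ (algebraMap ℚ Qb q) = ‖(q : ℚ_[ℓ])‖ := by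
  rw [nrm_def, AlgHom.commutes, ← PadicAlgCl.norm_extends ℓ (q : ℚ_[ℓ])]
  congr 1

lemma mem_Av_iff {x : Qb} : x ∈ padicPlace ℓ ↔ nrm ℓ x ≤ 1 := by
  rw [mem_padicPlace_iff, ← NNReal.coe_le_coe, coe_nnnorm, NNReal.coe_one]; rfl

lemma mem_nonunits_iff {x : Qb} : x ∈ (padicPlace ℓ).nonunits ↔ nrm ℓ x < 1 :=
  mem_nonunits_padicPlace_iff ℓ x

variable (ℓ) in
lemma liesOverPrime : (padicPlace ℓ).LiesOverPrime ℓ := liesOverPrime_padicPlace ℓ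

lemma ell_ne_zero : ((ℓ : ℕ) : Qb) ≠ 0 := by
  exact_mod_cast (Fact.out : ℓ.Prime).ne_zero

lemma inv_ell_lt_one : ((ℓ : ℝ))⁻¹ < 1 := by
  have hq : (1 : ℝ) < ℓ := by exact_mod_cast (Fact.out : ℓ.Prime).one_lt
  exact inv_lt_one_of_one_lt₀ hq

lemma inv_ell_pos : (0 : ℝ) < ((ℓ : ℝ))⁻¹ := by
  have : (0 : ℝ) < ℓ := by exact_mod_cast (Fact.out : ℓ.Prime).pos
  positivity

/-- Divisibility in `A` from norms. -/
lemma dvd_of_nrm_le {x w : Qb} (hw : w ≠ 0) (h : nrm ℓ x ≤ nrm ℓ w) :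
    ∃ a : Qb, nrm ℓ a ≤ 1 ∧ x = w * a := by
  refine ⟨x / w, ?_, by field_simp⟩
  rw [nrm_div, div_le_one (nrm_pos hw)]
  exact h

/-- **Rank one**: a power of any non-unit is divisible by any nonzero element. -/
theorem exists_pow_mem_span {w c : Qb} (hw : w ≠ 0) (hc : nrm ℓ c < 1) :
    ∃ (n : ℕ) (a : Qb), nrm ℓ a ≤ 1 ∧ c ^ n = w * a := by
  obtain ⟨n, hn⟩ := exists_pow_lt_of_lt_one (nrm_pos (ℓ := ℓ) hw) hc
  obtain ⟨a, ha, h⟩ := dvd_of_nrm_le (ℓ := ℓ) (x := c ^ n) hw (by rw [nrm_pow]; exact hn.le)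
  exact ⟨n, a, ha, h⟩

/-- **Rank one**, in the valuation ring `A = padicPlace ℓ`. -/
theorem exists_pow_mem_span' {w : padicPlace ℓ} (hw : w ≠ 0) {c : padicPlace ℓ}
    (hc : c ∈ IsLocalRing.maximalIdeal (padicPlace ℓ)) :
    ∃ n : ℕ, c ^ n ∈ Ideal.span {w} := by
  have hw' : (w : Qb) ≠ 0 := fun h => hw (Subtype.ext h)
  have hc' : nrm ℓ (c : Qb) < 1 := by
    rw [← mem_nonunits_iff]
    rw [IsLocalRing.mem_maximalIdeal] at hc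
    exact (ValuationSubring.coe_mem_nonunits_iff).2 hc
  obtain ⟨n, a, ha, h⟩ := exists_pow_mem_span (ℓ := ℓ) hw' hc'
  refine ⟨n, Ideal.mem_span_singleton'.2 ⟨⟨a, mem_Av_iff.2 ha⟩, Subtype.ext ?_⟩⟩
  simp only [MulMemClass.coe_mul, SubmonoidClass.coe_pow]
  rw [h, mul_comm]

/-! ### Decomposition and inertia groups -/

variable (ℓ)

/-- The decomposition group of `padicPlace ℓ`. -/
abbrev Dv : Subgroup GQ := (padicPlace ℓ).decompositionSubgroup ℚ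

/-- The inertia group of `padicPlace ℓ`. -/
abbrev Iv : Subgroup GQ := (padicPlace ℓ).inertiaSubgroupIn ℚ

variable {ℓ}

lemma Iv_le_Dv : Iv ℓ ≤ Dv ℓ := by
  intro σ hσ
  rw [Iv, ValuationSubring.inertiaSubgroupIn, Subgroup.mem_map] at hσ
  obtain ⟨g, _, rfl⟩ := hσ
  exact g.2

lemma nrm_smul_of_mem_Dv {σ : GQ} (hσ : σ ∈ Dv ℓ) (x : Qb) : nrm ℓ (σ x) = nrm ℓ x :=
  norm_padicEmbedding_apply (q := ℓ) hσ x

lemma rq_mem_Dv (τ : Gq ℓ) : rq ℓ τ ∈ Dv ℓ := rq_mem_decomposition ℓ τ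

lemma rq_mem_Iv {τ : Gq ℓ} (hτ : τ ∈ Iq ℓ) : rq ℓ τ ∈ Iv ℓ := rq_mem_inertia ℓ hτ

lemma exists_rq_eq_of_mem_Dv {σ : GQ} (hσ : σ ∈ Dv ℓ) : ∃ τ : Gq ℓ, rq ℓ τ = σ :=
  exists_rq_eq (q := ℓ) hσ

lemma exists_rq_eq_of_mem_Iv {σ : GQ} (hσ : σ ∈ Iv ℓ) : ∃ τ ∈ Iq ℓ, rq ℓ τ = σ :=
  exists_mem_Iq_rq_eq (q := ℓ) hσ

lemma smul_mem_Av_iff {σ : GQ} (hσ : σ ∈ Dv ℓ) {x : Qb} :
    σ x ∈ padicPlace ℓ ↔ x ∈ padicPlace ℓ := by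
  rw [mem_Av_iff, mem_Av_iff, nrm_smul_of_mem_Dv hσ]

/-! ### The unramified integers -/

variable (ℓ)

/-- The unramified integers of `ℚ̄` at `padicPlace ℓ`: elements of `A` fixed by the inertia group. -/
def Wur : Subring Qb where
  carrier := {x | x ∈ padicPlace ℓ ∧ ∀ σ ∈ Iv ℓ, σ x = x}
  mul_mem' := fun {a b} ha hb => ⟨mul_mem ha.1 hb.1, fun σ hσ => by
    rw [map_mul, ha.2 σ hσ, hb.2 σ hσ]⟩
  one_mem' := ⟨one_mem _, fun σ _ => map_one σ⟩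
  add_mem' := fun {a b} ha hb => ⟨add_mem ha.1 hb.1, fun σ hσ => by
    rw [map_add, ha.2 σ hσ, hb.2 σ hσ]⟩
  zero_mem' := ⟨zero_mem _, fun σ _ => map_zero σ⟩
  neg_mem' := fun {a} ha => ⟨neg_mem ha.1, fun σ hσ => by rw [map_neg, ha.2 σ hσ]⟩

variable {ℓ}

lemma mem_Wur_iff {x : Qb} : x ∈ Wur ℓ ↔ nrm ℓ x ≤ 1 ∧ ∀ σ ∈ Iv ℓ, σ x = x := by
  rw [← mem_Av_iff]; rfl

lemma Wur_le_placeS : Wur ℓ ≤ (padicPlace ℓ).toSubring := fun _ hx => hx.1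

lemma natCast_mem_Wur (n : ℕ) : (n : Qb) ∈ Wur ℓ := natCast_mem _ n

lemma intCast_mem_Wur (n : ℤ) : (n : Qb) ∈ Wur ℓ := intCast_mem _ n

/-- `ι` maps the unramified integers of `ℚ̄` to those of `ℚ̄_ℓ`. -/
lemma padicEmbedding_mem_Our {x : Qb} (hx : x ∈ Wur ℓ) : padicEmbedding ℓ x ∈ Our ℓ := by
  rw [mem_Our_iff]
  refine ⟨(mem_Wur_iff.1 hx).1, fun τ hτ => ?_⟩
  rw [← padicEmbedding_localGaloisToGlobal]
  exact congrArg _ (hx.2 _ (rq_mem_Iv hτ))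

/-- `Wur` is stable under the decomposition group. -/
lemma smul_mem_Wur {σ : GQ} (hσ : σ ∈ Dv ℓ) {x : Qb} (hx : x ∈ Wur ℓ) : σ x ∈ Wur ℓ := by
  refine ⟨(smul_mem_Av_iff hσ).2 hx.1, fun τ hτ => ?_⟩
  -- `σ⁻¹ τ σ ∈ Iv`
  have hconj : σ⁻¹ * τ * σ ∈ Iv ℓ := by
    have := conj_mem_inertiaSubgroupIn (padicPlace ℓ) ((Dv ℓ).inv_mem hσ) hτ
    simpa using this
  have h := hx.2 _ hconj
  have h2 : σ ((σ⁻¹ * τ * σ) x) = τ (σ x) := by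
    simp only [AlgEquiv.mul_apply]
    exact AlgEquiv.apply_symm_apply σ _
  rw [← h2, h]

lemma inv_mem_Wur {x : Qb} (hx : x ∈ Wur ℓ) (h1 : nrm ℓ x = 1) : x⁻¹ ∈ Wur ℓ := by
  rw [mem_Wur_iff]
  refine ⟨by rw [nrm_inv, h1, inv_one], fun σ hσ => ?_⟩
  rw [map_inv₀, hx.2 σ hσ]

/-- An unramified integer of norm `< 1` is divisible by `ℓ` in `Wur`. -/
lemma div_ell_mem_Wur {x : Qb} (hx : x ∈ Wur ℓ) (h1 : nrm ℓ x < 1) :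
    x / ((ℓ : ℕ) : Qb) ∈ Wur ℓ := by
  rw [mem_Wur_iff]
  constructor
  · have h := Fermat.Agent.TW.LOC.UnramFixed4.norm_div_q_le_one_of_fixed ℓ (padicEmbedding ℓ x)
      (padicEmbedding_mem_Our hx).2 h1
    rw [nrm_def, map_div₀, map_natCast]
    exact h
  · intro σ hσ
    rw [map_div₀, hx.2 σ hσ, map_natCast]

/-- Every nonzero unramified integer is a power of `ℓ` times a unit of `Wur`. -/
theorem Wur.exists_eq_pow_mul {x : Qb} (hx : x ∈ Wur ℓ) (hx0 : x ≠ 0) :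
    ∃ (n : ℕ) (u : Qb), u ∈ Wur ℓ ∧ u⁻¹ ∈ Wur ℓ ∧ x = ((ℓ : ℕ) : Qb) ^ n * u := by
  have key : ∀ n : ℕ, ∀ x : Qb, x ∈ Wur ℓ → x ≠ 0 → ((ℓ : ℝ)⁻¹) ^ n ≤ nrm ℓ x →
      ∃ (m : ℕ) (u : Qb), u ∈ Wur ℓ ∧ u⁻¹ ∈ Wur ℓ ∧ x = ((ℓ : ℕ) : Qb) ^ m * u := by
    intro n
    induction n with
    | zero =>
      intro x hx _ h
      rw [pow_zero] at h
      have h1 : nrm ℓ x = 1 := le_antisymm (mem_Wur_iff.1 hx).1 h
      exact ⟨0, x, hx, inv_mem_Wur hx h1, by rw [pow_zero, one_mul]⟩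
    | succ n ih =>
      intro x hx hx0 h
      rcases (mem_Wur_iff.1 hx).1.lt_or_eq with hlt | heq
      · have hdiv := div_ell_mem_Wur hx hlt
        have hne : x / ((ℓ : ℕ) : Qb) ≠ 0 := div_ne_zero hx0 ell_ne_zero
        have hn : ((ℓ : ℝ)⁻¹) ^ n ≤ nrm ℓ (x / ((ℓ : ℕ) : Qb)) := by
          rw [nrm_div, nrm_natCast_self, le_div_iff₀ inv_ell_pos, ← pow_succ]
          exact h
        obtain ⟨m, u, hu, hu', hxu⟩ := ih _ hdiv hne hn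
        refine ⟨m + 1, u, hu, hu', ?_⟩
        rw [pow_succ, mul_right_comm, ← hxu]
        field_simp [ell_ne_zero (ℓ := ℓ)]
      · exact ⟨0, x, hx, inv_mem_Wur hx heq, by rw [pow_zero, one_mul]⟩
  have hpos := nrm_pos (ℓ := ℓ) hx0
  obtain ⟨n, hn⟩ := exists_pow_lt_of_lt_one hpos (inv_ell_lt_one (ℓ := ℓ))
  exact key n x hx hx0 hn.le

end

end Fermat.Agent.FF.BASE.Place2
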