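/-
Programme FF (S19), chapter BASE (helper2), file Map2: TRANSPORT of approximate Hopf generating sets
along a ring homomorphism, and the instance `padicEmbedding ℓ : ℚ̄ → ℚ̄_ℓ`.

* `push φ f = φ ∘ f`, `push2 φ F = φ ∘ F`; `push_mem_adjoin`, `push2_mem_tensorSpan`;
* `approxGen_map` : `ApproxGen W O act S → ApproxGen W' O' (act ∘ r) (push φ '' S)` for an injective
  ring homomorphism `φ : Om → Om'` compatible with `j : W → W'`, `O → O'`, `r : Gam' → Gam`, when
  every nonzero element of `W'` divides the image of a nonzero element of `W`;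
* `star_push` : compatibility with the semilinear action `Descent2.star`;
* `approxGen_local` : from `(Wur ℓ, placeS ℓ, Iv ℓ)` over `ℚ̄` to `(Our ℓ, ballS ℓ, Iq ℓ)` over `ℚ̄_ℓ`;
  `stable_local` : `Dv ℓ`-stability gives `Gq ℓ`-stability.
-/
import Mathlib
import Fermat.Agent.FF.BASE.ApproxGen2
import Fermat.Agent.FF.BASE.Descent2
import Fermat.Agent.FF.BASE.Place2
import Fermat.Agent.FF.BASE.GlobalDescent2

set_option autoImplicit false
set_option linter.unusedSectionVars false

namespace Fermat.Agent.FF.BASE.Map2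

open Fermat.Agent.FF.BASE.ApproxGen2 Fermat.Agent.FF.BASE.Descent2

noncomputable section

open scoped BigOperators

section General

variable {W W' : Type} [CommRing W] [CommRing W'] {Om Om' : Type} [CommRing Om] [CommRing Om']
  [Algebra W Om] [Algebra W' Om'] {M : Type} [AddCommGroup M]
  (φ : Om →+* Om') (j : W →+* W')

/-- Push a function forward along `φ`. -/
def push {X : Type} (f : X → Om) : X → Om' := fun m => φ (f m)

lemma push_apply {X : Type} (f : X → Om) (m : X) : push φ f m = φ (f m) := rfl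

lemma push_tens (a b : M → Om) : push φ (tens a b) = tens (push φ a) (push φ b) := by
  funext p
  simp only [push_apply, tens_apply, map_mul]

variable {φ j}

lemma push_mem_adjoin (hj : ∀ w, φ (algebraMap W Om w) = algebraMap W' Om' (j w))
    {S : Set (M → Om)} {f : M → Om} (hf : f ∈ Algebra.adjoin W S) :
    push φ f ∈ Algebra.adjoin W' (push φ '' S) := by
  induction hf using Algebra.adjoin_induction with
  | mem s hs => exact Algebra.subset_adjoin ⟨s, hs, rfl⟩
  | algebraMap w =>
    have : push φ (algebraMap W (M → Om) w) = algebraMap W' (M → Om') (j w) := by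
      funext m
      simp only [push_apply, Pi.algebraMap_apply, hj]
    rw [this]
    exact Subalgebra.algebraMap_mem _ _
  | add f g _ _ hf hg =>
    have : push φ (f + g) = push φ f + push φ g := by
      funext m
      simp only [push_apply, Pi.add_apply, map_add]
    rw [this]
    exact Subalgebra.add_mem _ hf hg
  | mul f g _ _ hf hg =>
    have : push φ (f * g) = push φ f * push φ g := by
      funext m
      simp only [push_apply, Pi.mul_apply, map_mul]
    rw [this]
    exact Subalgebra.mul_mem _ hf hg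

lemma push_mem_tensorSpan (hj : ∀ w, φ (algebraMap W Om w) = algebraMap W' Om' (j w))
    {S : Set (M → Om)} {t : M × M → Om} (ht : t ∈ tensorSpan W S) :
    push φ t ∈ tensorSpan W' (push φ '' S) := by
  unfold tensorSpan at ht
  induction ht using Submodule.span_induction with
  | mem t ht =>
    obtain ⟨a, ha, b, hb, rfl⟩ := ht
    rw [push_tens]
    exact tens_mem_tensorSpan (push_mem_adjoin hj ha) (push_mem_adjoin hj hb)
  | zero =>
    have : push φ (0 : M × M → Om) = 0 := by
      funext p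
      simp only [push_apply, Pi.zero_apply, map_zero]
    rw [this]
    exact Submodule.zero_mem _
  | add x y _ _ hx hy =>
    have : push φ (x + y) = push φ x + push φ y := by
      funext p
      simp only [push_apply, Pi.add_apply, map_add]
    rw [this]
    exact Submodule.add_mem _ hx hy
  | smul w x _ hx =>
    have : push φ (w • x) = j w • push φ x := by
      funext p
      rw [push_apply, Pi.smul_apply, Pi.smul_apply, Algebra.smul_def, Algebra.smul_def, map_mul, hj]
      rfl
    rw [this]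
    exact Submodule.smul_mem _ _ hx

/-- **Transport of approximate Hopf generating sets** along an injective ring homomorphism. -/
theorem approxGen_map {Gam Gam' : Type} [SMul Gam Om] [SMul Gam' Om'] {O : Subring Om}
    {O' : Subring Om'} {act : Gam → M → M} (r : Gam' → Gam) (hφ : Function.Injective φ)
    (hj : ∀ w, φ (algebraMap W Om w) = algebraMap W' Om' (j w))
    (hO : ∀ x ∈ O, φ x ∈ O') (hr : ∀ (γ : Gam') (x : Om), φ (r γ • x) = γ • φ x)
    (hW'O' : ∀ v : W', algebraMap W' Om' v ∈ O')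
    (hdiv : ∀ w' : W', w' ≠ 0 → ∃ w : W, w ≠ 0 ∧ w' ∣ j w)
    {S : Set (M → Om)} (h : ApproxGen W O act S) :
    ApproxGen W' O' (fun γ => act (r γ)) (push φ '' S) where
  fin := h.fin.image _
  int := by
    rintro _ ⟨s, hs, rfl⟩ x
    exact hO _ (h.int s hs x)
  eqv := by
    rintro _ ⟨s, hs, rfl⟩ γ x
    show φ (s (act (r γ) x)) = γ • φ (s x)
    rw [h.eqv s hs, hr]
  sep := by
    intro x y hxy
    apply h.sep
    intro s hs
    exact hφ (hxy _ ⟨s, hs, rfl⟩)
  comul := by
    rintro _ ⟨s, hs, rfl⟩ w' hw'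
    obtain ⟨w, hw, hdvd⟩ := hdiv w' hw'
    obtain ⟨t, ht, hsmall⟩ := h.comul s hs w hw
    refine ApproxComul.of_dvd hW'O' hdvd ⟨push φ t, push_mem_tensorSpan hj ht, fun p => ?_⟩
    obtain ⟨o, ho, heq⟩ := hsmall p
    have heq' : s (p.1 + p.2) - t p = algebraMap W Om w * o := heq
    refine ⟨φ o, hO o ho, ?_⟩
    show φ (s (p.1 + p.2)) - φ (t p) = _
    rw [← map_sub, heq', map_mul, hj]

end General

section Star

variable {Om Om' : Type} [CommRing Om] [CommRing Om'] {G G' : Type} [Group G] [Group G']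
  [MulSemiringAction G Om] [MulSemiringAction G' Om'] {M : Type} [AddCommGroup M]
  (φ : Om →+* Om') (r : G' →* G)

/-- Compatibility of `push` with the semilinear actions. -/
lemma star_push (hr : ∀ (γ : G') (x : Om), φ (r γ • x) = γ • φ x) (act : G → M → M) (g : G')
    (s : M → Om) :
    star (fun γ : G' => act (r γ)) g (push φ s) = push φ (star act (r g) s) := by
  funext m
  simp only [star_apply, push_apply, map_inv, hr]

end Star

/-! ### The instance `padicEmbedding ℓ` -/

section Local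

open Fermat.Agent.FF.BASE.Place2 Fermat.Agent.FF.BASE.GlobalDescent2
  Fermat.Agent.TW.FLAT.FlatModule6 Fermat.Agent.TW.LOC.Defs2 Fermat.Agent.TW.FLAT.UnrBase7
  Fermat.Agent.TW.FLAT.IntrinsicLocal7 GaloisRep

variable (ℓ : ℕ) [Fact ℓ.Prime] {M : Type} [AddCommGroup M] (act : GQ → M → M)

/-- `ι = padicEmbedding ℓ` as a ring homomorphism. -/
abbrev iotaHom : Qb →+* PadicAlgCl ℓ := (padicEmbedding ℓ).toRingHom

/-- The restriction `Wur ℓ → Our ℓ` of `ι`. -/
def jur : Wur ℓ →+* Our ℓ :=
  RingHom.codRestrict ((iotaHom ℓ).comp (Wur ℓ).subtype) (Our ℓ)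
    (fun x => padicEmbedding_mem_Our x.2)

lemma coe_jur (x : Wur ℓ) : ((jur ℓ x : Our ℓ) : PadicAlgCl ℓ) = padicEmbedding ℓ (x : Qb) := rfl

/-- **Transport to the completion** of an approximate Hopf generating set over the unramified
integers `Wur ℓ` of `ℚ̄`. -/
theorem approxGen_local {S0 : Set (M → Qb)}
    (h : ApproxGen (Wur ℓ) (placeS ℓ) (fun γ : Iv ℓ => act γ.1) S0) :
    ApproxGen (Our ℓ) (ballS ℓ) (fun τ : Iq ℓ => act (rq ℓ τ.1)) (push (iotaHom ℓ) '' S0) := by
  refine approxGen_map (φ := iotaHom ℓ) (j := jur ℓ)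
    (fun τ : Iq ℓ => (⟨rq ℓ τ.1, rq_mem_Iv τ.2⟩ : Iv ℓ)) (padicEmbedding ℓ).toRingHom.injective
    (fun w => rfl) ?_ ?_ ?_ ?_ h
  · intro x hx
    exact mem_placeS_iff ℓ |>.1 hx
  · intro τ x
    exact padicEmbedding_localGaloisToGlobal ℓ τ.1 x
  · intro v
    exact algebraMap_Our_mem v
  · intro w' hw'
    obtain ⟨n, u, hu⟩ := Fermat.Agent.TW.FLAT.UnrBase7.exists_eq_pow_mul_unit w' hw'
    refine ⟨((ℓ : ℕ) : Wur ℓ) ^ n, ?_, ?_⟩
    · intro h0
      have h1 := congrArg (fun x : Wur ℓ => (Wur ℓ).subtype x) h0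
      simp only [map_pow, map_natCast, map_zero] at h1
      exact pow_ne_zero n (by exact_mod_cast (Fact.out : ℓ.Prime).ne_zero) h1
    · refine ⟨(↑u⁻¹ : Our ℓ), ?_⟩
      rw [map_pow, map_natCast, hu, mul_assoc, Units.mul_inv, mul_one]

/-- `Dv ℓ`-stability over `ℚ̄` gives `Gq ℓ`-stability over `ℚ̄_ℓ`. -/
theorem stable_local {S0 : Set (M → Qb)}
    (hstab : ∀ σ ∈ Dv ℓ, ∀ s ∈ S0, star act σ s ∈ S0) (τ : Gq ℓ) :
    ∀ s' ∈ push (iotaHom ℓ) '' S0,
      star (fun τ : Gq ℓ => act (rq ℓ τ)) τ s' ∈ push (iotaHom ℓ) '' S0 := by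
  rintro _ ⟨s, hs, rfl⟩
  rw [star_push (iotaHom ℓ) (rq ℓ) (fun γ x => padicEmbedding_localGaloisToGlobal ℓ γ x) act τ s]
  exact ⟨_, hstab _ (rq_mem_Dv τ) s hs, rfl⟩

end Local

end

end Fermat.Agent.FF.BASE.Map2
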