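/-
Programme FF (S19), chapter BASE (helper2), file Final2: THE CONCRETE UNRAMIFIED DESCENT and the
final statement of the chapter.

`Ω = PadicAlgCl ℓ`, `Gq ℓ = Gal(Ω/ℚ_ℓ) ⊇ Iq ℓ`, `Our ℓ` the unramified integers, `M` a finite
`G_ℚ`-module with open stabilizers, acting on by `Gq ℓ` through `rq ℓ`.

* `smul_mem_Our` : `Our ℓ` is stable under `Gq ℓ`;
* `stabS` : the stabilizer of a set of functions for the semilinear action `Descent2.star`;
  `Iq_le_stabS`, `exists_level_le_stabS` (it is open);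
* `exists_trace_one` : a dual pair gives an element of trace one (`ℤ_ℓ` is local);
* `approxGen_padicInt` : `(Our ℓ, Iq ℓ)`-generators stable under `Gq ℓ` give `(ℤ_ℓ, Gq ℓ)`-generators
  (`Descent2.approxGen_descent` + `DualPair7.exists_dualPair`);
* **`hasFlatModel_of_unramified`** : an approximate Hopf generating set over
  `(Wur ℓ, placeS ℓ, Iv ℓ)` (over `ℚ̄`), stable under the decomposition group `Dv ℓ`, gives
  `HasFlatModel (ratLocalizedAt ℓ) ℚ̄ G_ℚ M act`.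
-/
import Mathlib
import Fermat.Agent.FF.BASE.Descent2
import Fermat.Agent.FF.BASE.Map2
import Fermat.Agent.FF.BASE.DualPair7
import Fermat.Agent.FF.HOPF.Tail6

set_option autoImplicit false
set_option linter.unusedSectionVars false
set_option linter.style.haveILetI false

namespace Fermat.Agent.FF.BASE.Final2

open Fermat.Agent.FF.BASE.ApproxGen2 Fermat.Agent.FF.BASE.Descent2 Fermat.Agent.FF.BASE.Map2
  Fermat.Agent.FF.BASE.Place2 Fermat.Agent.FF.BASE.GlobalDescent2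
  Fermat.Agent.TW.FLAT.FlatModule6 Fermat.Agent.TW.LOC.Defs2 Fermat.Agent.TW.FLAT.UnrBase7
  Fermat.Agent.TW.LOC.TameProfinite4 Fermat.Agent.TW.FLAT.Points6
  Fermat.Agent.PT.BR.LocInj13 GaloisRep

noncomputable section

open scoped BigOperators

variable (ℓ : ℕ) [Fact ℓ.Prime]

local notation "Ω" => PadicAlgCl ℓ

/-! ### `Our ℓ` is Galois stable -/

lemma smul_mem_Our (τ : Gq ℓ) {x : Ω} (hx : x ∈ Our ℓ) : τ x ∈ Our ℓ := by
  rw [mem_Our_iff] at hx ⊢
  refine ⟨by rw [norm_galois]; exact hx.1, fun σ hσ => ?_⟩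
  have hconj : τ⁻¹ * σ * τ ∈ Iq ℓ := by
    have := (Iq_normal ℓ).conj_mem σ hσ τ⁻¹
    rwa [inv_inv] at this
  have h1 := hx.2 _ hconj
  rw [AlgEquiv.mul_apply, AlgEquiv.mul_apply] at h1
  have h2 := congrArg τ h1
  rwa [AlgEquiv.aut_inv, AlgEquiv.apply_symm_apply] at h2

/-! ### The action through `rq ℓ` and stabilizers for `star` -/

section Stab

variable {M : Type} [AddCommGroup M] (act : GQ → M → M)

/-- The action of `Gq ℓ` on `M` through `rq ℓ`. -/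
abbrev actL : Gq ℓ → M → M := fun τ => act (rq ℓ τ)

variable {act}

lemma actL_one (hact1 : ∀ x, act 1 x = x) (x : M) : actL ℓ act 1 x = x := by
  show act (rq ℓ 1) x = x
  rw [map_one, hact1]

lemma actL_mul (hactmul : ∀ σ τ x, act (σ * τ) x = act σ (act τ x)) (σ τ : Gq ℓ) (x : M) :
    actL ℓ act (σ * τ) x = actL ℓ act σ (actL ℓ act τ x) := by
  show act (rq ℓ (σ * τ)) x = act (rq ℓ σ) (act (rq ℓ τ) x)
  rw [map_mul, hactmul]

lemma star_one' {Om : Type} [CommRing Om] {G : Type} [Group G] [MulSemiringAction G Om]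
    {a : G → M → M} (ha1 : ∀ x, a 1 x = x) (f : M → Om) : star a 1 f = f := by
  funext m
  rw [star_apply, inv_one, ha1, one_smul]

/-- The stabilizer of a set of functions `M → Ω` for the semilinear action. -/
def stabS (hact1 : ∀ x, act 1 x = x) (hactmul : ∀ σ τ x, act (σ * τ) x = act σ (act τ x))
    (S : Set (M → Ω)) : Subgroup (Gq ℓ) where
  carrier := {τ | ∀ s ∈ S, star (actL ℓ act) τ s = s}
  mul_mem' := by
    intro σ τ hσ hτ s hs
    rw [star_comp (actL_mul ℓ hactmul), hτ s hs, hσ s hs]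
  one_mem' := fun s _ => star_one' (actL_one ℓ hact1) s
  inv_mem' := by
    intro τ hτ s hs
    have h1 : star (actL ℓ act) τ⁻¹ (star (actL ℓ act) τ s) = s := by
      rw [← star_comp (actL_mul ℓ hactmul), inv_mul_cancel]
      exact star_one' (actL_one ℓ hact1) s
    rwa [hτ s hs] at h1

lemma mem_stabS (hact1 : ∀ x, act 1 x = x)
    (hactmul : ∀ σ τ x, act (σ * τ) x = act σ (act τ x)) {S : Set (M → Ω)} {τ : Gq ℓ} :
    τ ∈ stabS ℓ hact1 hactmul S ↔ ∀ s ∈ S, star (actL ℓ act) τ s = s := Iff.rfl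

lemma Iq_le_stabS (hact1 : ∀ x, act 1 x = x)
    (hactmul : ∀ σ τ x, act (σ * τ) x = act σ (act τ x)) {S : Set (M → Ω)}
    (heqv : ∀ s ∈ S, ∀ (τ : Iq ℓ) (x : M), s (act (rq ℓ τ.1) x) = τ • s x) :
    Iq ℓ ≤ stabS ℓ hact1 hactmul S := by
  intro τ hτ s hs
  exact star_eq_of_eqv (actL_one ℓ hact1) (actL_mul ℓ hactmul) fun m => heqv s hs ⟨τ, hτ⟩ m

/-- The stabilizer is open: it contains the Galois group of a finite extension of `ℚ_ℓ`. -/
lemma exists_level_le_stabS [Finite M] (hact1 : ∀ x, act 1 x = x)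
    (hactmul : ∀ σ τ x, act (σ * τ) x = act σ (act τ x))
    (hopen : ∀ x : M, ∃ K : IntermediateField ℚ Qb, FiniteDimensional ℚ K ∧
      ∀ σ ∈ K.fixingSubgroup, act σ x = x)
    {S : Set (M → Ω)} (hS : S.Finite) :
    ∃ L : IntermediateField ℚ_[ℓ] Ω, FiniteDimensional ℚ_[ℓ] L ∧
      L.fixingSubgroup ≤ stabS ℓ hact1 hactmul S := by
  classical
  choose K hKfd hK using hopen
  -- the global field trivialising the action
  let K0 : IntermediateField ℚ Qb := ⨆ x : M, K x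
  haveI : ∀ x, FiniteDimensional ℚ (K x) := hKfd
  haveI hK0fd : FiniteDimensional ℚ K0 := IntermediateField.finiteDimensional_iSup_of_finite
  -- the local field of the values
  let vals : Set Ω := ⋃ s ∈ S, Set.range s
  have hvals : vals.Finite := hS.biUnion fun s _ => Set.finite_range s
  let L1 : IntermediateField ℚ_[ℓ] Ω := IntermediateField.adjoin ℚ_[ℓ] vals
  haveI : Finite vals := hvals.to_subtype
  haveI hL1 : FiniteDimensional ℚ_[ℓ] L1 :=
    IntermediateField.finiteDimensional_adjoin fun x _ => Algebra.IsIntegral.isIntegral x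
  refine ⟨L1 ⊔ localField ℓ K0, IntermediateField.finiteDimensional_sup _ _, ?_⟩
  intro τ hτ s hs
  have hτ1 : τ ∈ L1.fixingSubgroup := IntermediateField.fixingSubgroup_antitone le_sup_left hτ
  have hτ2 : τ ∈ (localField ℓ K0).fixingSubgroup :=
    IntermediateField.fixingSubgroup_antitone le_sup_right hτ
  have hτ2' : τ⁻¹ ∈ (localField ℓ K0).fixingSubgroup := inv_mem hτ2
  rw [mem_fixingSubgroup_localField_iff] at hτ2'
  funext m
  rw [star_apply]
  have hm : actL ℓ act τ⁻¹ m = m := by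
    apply hK m
    exact IntermediateField.fixingSubgroup_antitone (le_iSup K m) hτ2'
  rw [hm]
  have hmem : s m ∈ L1 := IntermediateField.subset_adjoin _ _
    (Set.mem_biUnion hs (Set.mem_range_self m))
  exact (IntermediateField.mem_fixingSubgroup_iff _ _).1 hτ1 _ hmem

end Stab

/-! ### Trace-one elements -/

section Trace

lemma ball_stable (τ : Gq ℓ) : ∀ x ∈ ballS ℓ, τ • x ∈ ballS ℓ := by
  intro x hx
  rw [mem_ballS_iff] at hx ⊢
  rw [AlgEquiv.smul_def, norm_galois]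
  exact hx

lemma fixed_mem_padicInt : ∀ x ∈ ballS ℓ, (∀ τ : Gq ℓ, τ • x = x) →
    ∃ z : ℤ_[ℓ], algebraMap ℤ_[ℓ] Ω z = x := by
  intro x hx hfix
  obtain ⟨z, hz⟩ := Fermat.Agent.FF.HOPF.Local6.fixed_mem_range_local ℓ x hx hfix
  exact ⟨z, hz⟩

lemma padicInt_fixed (τ : Gq ℓ) (z : ℤ_[ℓ]) : τ • algebraMap ℤ_[ℓ] Ω z = algebraMap ℤ_[ℓ] Ω z := by
  rw [AlgEquiv.smul_def, IsScalarTower.algebraMap_apply ℤ_[ℓ] ℚ_[ℓ] Ω, AlgEquiv.commutes]

lemma norm_algebraMap_padicInt (z : ℤ_[ℓ]) : ‖algebraMap ℤ_[ℓ] Ω z‖ = ‖z‖ := by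
  rw [IsScalarTower.algebraMap_apply ℤ_[ℓ] ℚ_[ℓ] Ω, PadicAlgCl.norm_extends]
  rfl

/-- **A dual pair gives an element of trace one.** -/
lemma exists_trace_one (V : Subgroup (Gq ℓ)) [V.FiniteIndex] {r : ℕ} (w w' : Fin r → Our ℓ)
    (hw : ∀ τ ∈ V, ∀ i, τ (w i : Ω) = w i)
    (hd1 : ∀ τ ∈ V, ∑ i, τ (w i : Ω) * (w' i : Ω) = 1)
    (hd0 : ∀ τ : Gq ℓ, τ ∉ V → ∑ i, τ (w i : Ω) * (w' i : Ω) = 0) :
    ∃ u : Our ℓ, (∀ τ ∈ V, τ (u : Ω) = u) ∧ cosetSum V (fun g => g • (u : Ω)) = 1 := by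
  classical
  -- the traces of the `w i`
  have hT : ∀ i, ∃ z : ℤ_[ℓ], algebraMap ℤ_[ℓ] Ω z = cosetSum V (fun ρ => ρ • (w i : Ω)) := fun i =>
    exists_trace (ball_stable ℓ) (fixed_mem_padicInt ℓ) V (algebraMap_Our_mem (w i))
      (fun v hv => hw v hv i)
  choose z hz using hT
  -- `∑ i, Tr (w i) * w' i = 1`
  have hsum : ∑ i, algebraMap ℤ_[ℓ] Ω (z i) * (w' i : Ω) = 1 := by
    have h1 : ∀ i, algebraMap ℤ_[ℓ] Ω (z i) * (w' i : Ω) =
        cosetSum V (fun ρ => ρ • (w i : Ω) * (w' i : Ω)) := by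
      intro i
      rw [hz i]
      exact cosetSum_map V (AddMonoidHom.mulRight (w' i : Ω)) (fun ρ => ρ • (w i : Ω))
    simp only [h1]
    rw [← cosetSum_finset_sum]
    have h2 : ∀ ρ : Gq ℓ, ∑ i, ρ • (w i : Ω) * (w' i : Ω) = if ρ ∈ V then 1 else 0 := by
      intro ρ
      split_ifs with hρ
      · exact hd1 ρ hρ
      · exact hd0 ρ hρ
    rw [cosetSum_congr V h2]
    exact cosetSum_indicator V (1 : Ω)
  -- some trace is a unit
  have hunit : ∃ i, IsUnit (z i) := by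
    by_contra hcon0
    have hcon : ∀ i, ¬ IsUnit (z i) := fun i hi => hcon0 ⟨i, hi⟩
    have hdiv : ∀ i, ∃ y : ℤ_[ℓ], z i = (ℓ : ℤ_[ℓ]) * y := by
      intro i
      have hmem : z i ∈ IsLocalRing.maximalIdeal ℤ_[ℓ] := (IsLocalRing.mem_maximalIdeal _).2 (hcon i)
      rw [PadicInt.maximalIdeal_eq_span_p, Ideal.mem_span_singleton'] at hmem
      obtain ⟨y, hy⟩ := hmem
      exact ⟨y, by rw [← hy, mul_comm]⟩
    choose y hy using hdiv
    have h3 : (1 : Ω) = algebraMap ℤ_[ℓ] Ω (ℓ : ℤ_[ℓ]) *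
        ∑ i, algebraMap ℤ_[ℓ] Ω (y i) * (w' i : Ω) := by
      rw [← hsum, Finset.mul_sum]
      refine Finset.sum_congr rfl fun i _ => ?_
      rw [hy i, map_mul, mul_assoc]
    have hb : ‖∑ i, algebraMap ℤ_[ℓ] Ω (y i) * (w' i : Ω)‖ ≤ 1 := by
      have : (∑ i, algebraMap ℤ_[ℓ] Ω (y i) * (w' i : Ω)) ∈ ballS ℓ :=
        Subring.sum_mem _ fun i _ => Subring.mul_mem _ (algebraMap_padicInt_mem_ballS ℓ (y i))
          (algebraMap_Our_mem (w' i))
      exact this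
    have h4 : ‖(1 : Ω)‖ ≤ (ℓ : ℝ)⁻¹ := by
      rw [h3, norm_mul, norm_algebraMap_padicInt, PadicInt.norm_p]
      exact mul_le_of_le_one_right (by positivity) hb
    rw [norm_one] at h4
    have hℓ1 : (1 : ℝ) < ℓ := by exact_mod_cast (Fact.out : ℓ.Prime).one_lt
    have : (ℓ : ℝ)⁻¹ < 1 := inv_lt_one_of_one_lt₀ hℓ1
    linarith
  obtain ⟨i, hi⟩ := hunit
  obtain ⟨zu, hzu⟩ := hi
  refine ⟨(↑zu⁻¹ : ℤ_[ℓ]) • w i, ?_, ?_⟩
  · intro τ hτ
    have : (((↑zu⁻¹ : ℤ_[ℓ]) • w i : Our ℓ) : Ω) = algebraMap ℤ_[ℓ] Ω (↑zu⁻¹) * (w i : Ω) := by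
      rw [← Algebra.smul_def]
      rfl
    rw [this, map_mul, hw τ hτ i]
    congr 1
    exact padicInt_fixed ℓ τ _
  · have e : ∀ g : Gq ℓ, g • ((((↑zu⁻¹ : ℤ_[ℓ]) • w i : Our ℓ) : Ω)) =
        algebraMap ℤ_[ℓ] Ω (↑zu⁻¹) * (g • (w i : Ω)) := by
      intro g
      have : (((↑zu⁻¹ : ℤ_[ℓ]) • w i : Our ℓ) : Ω) = algebraMap ℤ_[ℓ] Ω (↑zu⁻¹) * (w i : Ω) := by
        rw [← Algebra.smul_def]
        rfl
      rw [this, smul_mul', padicInt_fixed]
    rw [cosetSum_congr V e]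
    have h5 : cosetSum V (fun g => algebraMap ℤ_[ℓ] Ω (↑zu⁻¹) * (g • (w i : Ω))) =
        algebraMap ℤ_[ℓ] Ω (↑zu⁻¹) * cosetSum V (fun g => g • (w i : Ω)) :=
      (cosetSum_map V (AddMonoidHom.mulLeft (algebraMap ℤ_[ℓ] Ω (↑zu⁻¹)))
        (fun g => g • (w i : Ω))).symm
    rw [h5, ← hz i, ← hzu, ← map_mul, Units.inv_mul, map_one]

end Trace

/-! ### The local descent -/

section LocalDescent

/-- Trace-one elements at arbitrarily deep levels. -/
lemma exists_level_trace_one (D : Finset (Our ℓ)) :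
    ∃ (V : Subgroup (Gq ℓ)) (_ : V.FiniteIndex) (u : Our ℓ),
      (∀ v ∈ V, ∀ d ∈ D, v • algebraMap (Our ℓ) Ω d = algebraMap (Our ℓ) Ω d) ∧
      (∀ v ∈ V, v • algebraMap (Our ℓ) Ω u = algebraMap (Our ℓ) Ω u) ∧
      cosetSum V (fun g => g • algebraMap (Our ℓ) Ω u) = 1 := by
  classical
  -- the finite extension generated by `D`
  let vals : Set Ω := (fun d : Our ℓ => (d : Ω)) '' (D : Set (Our ℓ))
  have hvals : vals.Finite := D.finite_toSet.image _
  let L : IntermediateField ℚ_[ℓ] Ω := IntermediateField.adjoin ℚ_[ℓ] vals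
  haveI : Finite vals := hvals.to_subtype
  haveI hL : FiniteDimensional ℚ_[ℓ] L :=
    IntermediateField.finiteDimensional_adjoin fun x _ => Algebra.IsIntegral.isIntegral x
  -- the subgroup fixing `D`
  let VS : Subgroup (Gq ℓ) := L.fixingSubgroup ⊔ Iq ℓ
  have hVS : ∀ v ∈ VS, ∀ d ∈ D, v ((d : Our ℓ) : Ω) = d := by
    intro v hv d hd
    have hle : VS ≤ MulAction.stabilizer (Gq ℓ) ((d : Our ℓ) : Ω) := by
      refine sup_le ?_ ?_
      · intro τ hτ
        rw [MulAction.mem_stabilizer_iff, AlgEquiv.smul_def]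
        exact (IntermediateField.mem_fixingSubgroup_iff _ _).1 hτ _
          (IntermediateField.subset_adjoin _ _ ⟨d, hd, rfl⟩)
      · intro τ hτ
        rw [MulAction.mem_stabilizer_iff, AlgEquiv.smul_def]
        exact fixed d hτ
    have := hle hv
    rwa [MulAction.mem_stabilizer_iff, AlgEquiv.smul_def] at this
  obtain ⟨V, r, w, w', hVVS, hVfin, hw, -, hdual⟩ :=
    Fermat.Agent.FF.BASE.DualPair7.exists_dualPair ℓ VS le_sup_right ⟨L, hL, le_sup_left⟩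
  haveI := hVfin
  have hd1 : ∀ τ ∈ V, ∑ i, τ (w i : Ω) * (w' i : Ω) = 1 := fun τ hτ => by
    rw [hdual τ, if_pos hτ]
  have hd0 : ∀ τ : Gq ℓ, τ ∉ V → ∑ i, τ (w i : Ω) * (w' i : Ω) = 0 := fun τ hτ => by
    rw [hdual τ, if_neg hτ]
  obtain ⟨u, hu, htr⟩ := exists_trace_one ℓ V w w' hw hd1 hd0
  exact ⟨V, hVfin, u, fun v hv d hd => hVS v (hVVS hv) d hd, fun v hv => hu v hv, htr⟩

variable {M : Type} [AddCommGroup M] [Finite M] {act : GQ → M → M}

/-- **The concrete unramified descent** `(Our ℓ, Iq ℓ) → (ℤ_ℓ, Gq ℓ)`. -/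
theorem approxGen_padicInt (hact1 : ∀ x, act 1 x = x)
    (hactmul : ∀ σ τ x, act (σ * τ) x = act σ (act τ x))
    (hactadd : ∀ σ x y, act σ (x + y) = act σ x + act σ y)
    (hopen : ∀ x : M, ∃ K : IntermediateField ℚ Qb, FiniteDimensional ℚ K ∧
      ∀ σ ∈ K.fixingSubgroup, act σ x = x)
    {S0 : Set (M → Ω)}
    (h0 : ApproxGen (Our ℓ) (ballS ℓ) (fun τ : Iq ℓ => act (rq ℓ τ.1)) S0)
    (hstab : ∀ τ : Gq ℓ, ∀ s ∈ S0, star (actL ℓ act) τ s ∈ S0) :
    ∃ S1 : Set (M → Ω), ApproxGen ℤ_[ℓ] (ballS ℓ) (fun τ : Gq ℓ => act (rq ℓ τ)) S1 := by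
  classical
  -- the dual pair at the level of the stabilizer of `S0`
  obtain ⟨L, hL, hLle⟩ := exists_level_le_stabS ℓ hact1 hactmul hopen h0.fin
  obtain ⟨V, r, w, w', hVVS, hVfin, hw, -, hdual⟩ :=
    Fermat.Agent.FF.BASE.DualPair7.exists_dualPair ℓ (stabS ℓ hact1 hactmul S0)
      (Iq_le_stabS ℓ hact1 hactmul h0.eqv) ⟨L, hL, hLle⟩
  refine approxGen_descent (G := Gq ℓ) (W1 := Our ℓ) (W0 := ℤ_[ℓ]) (act := actL ℓ act)
    (actL_one ℓ hact1) (actL_mul ℓ hactmul) (fun g x y => hactadd _ x y) (ball_stable ℓ)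
    (fun w => algebraMap_Our_mem w) ?_ ?_ (padicInt_fixed ℓ) (fixed_mem_padicInt ℓ) ?_ h0 hstab
    ⟨V, hVfin, r, w, w', ?_, ?_, ?_, ?_⟩ (exists_level_trace_one ℓ)
  · intro g w
    exact ⟨⟨g (w : Ω), smul_mem_Our ℓ g w.2⟩, rfl⟩
  · intro z
    exact ⟨algebraMap ℤ_[ℓ] (Our ℓ) z, (IsScalarTower.algebraMap_apply ℤ_[ℓ] (Our ℓ) Ω z).symm⟩
  · intro z hz
    have h1 : ‖algebraMap ℤ_[ℓ] Ω z‖ = 0 := by rw [hz, norm_zero]
    rw [norm_algebraMap_padicInt] at h1
    exact norm_eq_zero.1 h1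
  · intro v hv s hs
    exact hVVS hv s hs
  · intro v hv i
    exact hw v hv i
  · intro g hg
    have := hdual g
    rwa [if_pos hg] at this
  · intro g hg
    have := hdual g
    rwa [if_neg hg] at this

end LocalDescent

/-! ### The final statement of the chapter -/

section Final

variable {M : Type} [AddCommGroup M] [Finite M] {act : GQ → M → M}

/-- **Chapter BASE, final statement.**  An approximate Hopf generating set over the unramified
integers `Wur ℓ` of `ℚ̄` for the inertia group `Iv ℓ`, stable under the decomposition group `Dv ℓ`,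
on a finite `G_ℚ`-module with open stabilizers, gives a finite flat model over `ℤ_(ℓ)`. -/
theorem hasFlatModel_of_unramified (hact1 : ∀ x, act 1 x = x)
    (hactmul : ∀ σ τ x, act (σ * τ) x = act σ (act τ x))
    (hactadd : ∀ σ x y, act σ (x + y) = act σ x + act σ y)
    (hopen : ∀ x : M, ∃ K : IntermediateField ℚ Qb, FiniteDimensional ℚ K ∧
      ∀ σ ∈ K.fixingSubgroup, act σ x = x)
    {S0 : Set (M → Qb)}
    (h0 : ApproxGen (Wur ℓ) (placeS ℓ) (fun γ : Iv ℓ => act γ.1) S0)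
    (hstab : ∀ σ ∈ Dv ℓ, ∀ s ∈ S0, (fun m => σ • s (act σ⁻¹ m)) ∈ S0) :
    HasFlatModel (ratLocalizedAt ℓ) Qb GQ M act := by
  obtain ⟨S1, hS1⟩ := approxGen_padicInt ℓ hact1 hactmul hactadd hopen
    (approxGen_local ℓ act h0) (stable_local ℓ act hstab)
  exact Fermat.Agent.FF.HOPF.Tail6.hasFlatModel_of_local_of_open ℓ hact1 hactmul hactadd hopen hS1

end Final

end

end Fermat.Agent.FF.BASE.Final2
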