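/-
Programme FF (S19), chapter BASE (helper2), file Inertia2: the side conditions of
`INST/Orbit0.approxGen_orbitUnion` at `(G, Δ, Γ, W, O) = (G_ℚ, Dv ℓ, Iv ℓ, Wur ℓ, placeS ℓ)` and the
one-call form of the chapter:

* `conj_mem_Iv`, `smul_mem_placeS`, `algebraMap_Wur_injective`, `exists_smul_Wur`,
  `algebraMap_Wur_mem`, `exists_Wur_of_fixed` (= `hnorm`, `hO`, `hWinj`, `hW` of Orbit0 and
  `hWA`, `hWfix` of `INST/Main0.exists_approxGen` for `W = Wur ℓ`, `Γ = Iv ℓ`);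
* **`hasFlatModel_of_inertia`** : an approximate Hopf generating set over `(Wur ℓ, placeS ℓ, Iv ℓ)`
  — NOT assumed stable under the decomposition group — on a finite `G_ℚ`-module with open stabilizers
  gives `HasFlatModel (ratLocalizedAt ℓ) ℚ̄ G_ℚ M act`.
-/
import Mathlib
import Fermat.Agent.FF.BASE.Final2
import Fermat.Agent.FF.INST.Orbit0

set_option autoImplicit false
set_option linter.unusedSectionVars false

namespace Fermat.Agent.FF.BASE.Inertia2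

open Fermat.Agent.FF.BASE.ApproxGen2 Fermat.Agent.FF.BASE.Place2
  Fermat.Agent.FF.BASE.GlobalDescent2 Fermat.Agent.FF.INST.Orbit0
  Fermat.Agent.TW.FLAT.FlatModule6 Fermat.Agent.TW.FLAT.Points6 GaloisRep

noncomputable section

variable (ℓ : ℕ) [Fact ℓ.Prime]

/-- `Dv ℓ` normalises `Iv ℓ`. -/
lemma conj_mem_Iv : ∀ σ ∈ Dv ℓ, ∀ γ ∈ Iv ℓ, σ⁻¹ * γ * σ ∈ Iv ℓ := by
  intro σ hσ γ hγ
  have := Fermat.Agent.ES.FROB.FrobFacts12.conj_mem_inertiaSubgroupIn (padicPlace ℓ)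
    ((Dv ℓ).inv_mem hσ) hγ
  simpa using this

/-- `Dv ℓ` preserves the valuation ring. -/
lemma smul_mem_placeS : ∀ σ ∈ Dv ℓ, ∀ o ∈ placeS ℓ, σ • o ∈ placeS ℓ := by
  intro σ hσ o ho
  exact (smul_mem_Av_iff hσ).2 ho

lemma algebraMap_Wur_injective : Function.Injective (algebraMap (Wur ℓ) Qb) :=
  Subtype.val_injective

/-- `Dv ℓ` preserves the unramified integers. -/
lemma exists_smul_Wur : ∀ σ ∈ Dv ℓ, ∀ v : Wur ℓ,
    ∃ v' : Wur ℓ, algebraMap (Wur ℓ) Qb v' = σ • algebraMap (Wur ℓ) Qb v := by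
  intro σ hσ v
  exact ⟨⟨σ (v : Qb), smul_mem_Wur hσ v.2⟩, rfl⟩

lemma algebraMap_Wur_mem (w : Wur ℓ) : algebraMap (Wur ℓ) Qb w ∈ padicPlace ℓ := w.2.1

/-- The `Iv ℓ`-fixed elements of the valuation ring are the unramified integers. -/
lemma exists_Wur_of_fixed (a : padicPlace ℓ) (ha : ∀ γ : Iv ℓ, γ • (a : Qb) = a) :
    ∃ w : Wur ℓ, algebraMap (Wur ℓ) Qb w = a :=
  ⟨⟨(a : Qb), a.2, fun σ hσ => ha ⟨σ, hσ⟩⟩, rfl⟩

variable {M : Type} [AddCommGroup M] [Finite M] {act : GQ → M → M}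

/-- **Chapter BASE in one call.** -/
theorem hasFlatModel_of_inertia (hact1 : ∀ x, act 1 x = x)
    (hactmul : ∀ σ τ x, act (σ * τ) x = act σ (act τ x))
    (hactadd : ∀ σ x y, act σ (x + y) = act σ x + act σ y)
    (hopen : ∀ x : M, ∃ K : IntermediateField ℚ Qb, FiniteDimensional ℚ K ∧
      ∀ σ ∈ K.fixingSubgroup, act σ x = x)
    {S : Set (M → Qb)}
    (h : ApproxGen (Wur ℓ) (placeS ℓ) (fun γ : Iv ℓ => act γ.1) S) :
    HasFlatModel (ratLocalizedAt ℓ) Qb GQ M act := by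
  have h0 := approxGen_orbitUnion (W := Wur ℓ) (O := placeS ℓ) hact1 hactmul hactadd (Dv ℓ) (Iv ℓ)
    (conj_mem_Iv ℓ) (smul_mem_placeS ℓ) (algebraMap_Wur_injective ℓ) (exists_smul_Wur ℓ)
    (fun s _ => finite_twists (Dv ℓ) (fun a => finite_orbit_algEquiv a) s) h
  refine Fermat.Agent.FF.BASE.Final2.hasFlatModel_of_unramified ℓ hact1 hactmul hactadd hopen h0 ?_
  intro σ hσ s hs
  exact orbitUnion_stable hactmul hσ hs

end

end Fermat.Agent.FF.BASE.Inertia2
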